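import Fermat.Agent.S17.H380.AbsRel
import Mathlib.FieldTheory.IntermediateField.Adjoin.Algebra
import Mathlib.FieldTheory.IntermediateField.Adjoin.Basic

namespace Fermat.Agent.S17.H380

open NumberField Height Module IntermediateField

section RingHom

variable {F F' : Type*} [Field F] [NumberField F] [Field F'] [NumberField F']
variable {ι : Type*} [Finite ι]

/-- The normalized logarithmic height is invariant under ring homomorphisms of number fields. -/
theorem normalized_logHeight_ringHom (τ : F →+* F') (y : ι → F) :
    (finrank ℚ F' : ℝ)⁻¹ * logHeight (fun i => τ (y i)) = (finrank ℚ F : ℝ)⁻¹ * logHeight y := by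
  let _ := τ.toAlgebra
  have h1 : logHeight (fun i => τ (y i)) = finrank F F' * logHeight y :=
    logHeight_algebraMap (K := F) (L := F') y
  have h2 : finrank ℚ F * finrank F F' = finrank ℚ F' := Module.finrank_mul_finrank ℚ F F'
  have hF : (0 : ℝ) < finrank ℚ F := by exact_mod_cast Module.finrank_pos
  have hF' : (0 : ℝ) < finrank ℚ F' := by exact_mod_cast Module.finrank_pos
  rw [h1, ← h2]
  push_cast
  have hFF' : (0 : ℝ) < finrank F F' := by
    have : (0:ℝ) < (finrank ℚ F : ℝ) * (finrank F F' : ℝ) := by
      rw [← Nat.cast_mul, h2]; exact hF'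
    exact (mul_pos_iff_of_pos_left hF).mp this
  field_simp

end RingHom


section Abs

variable {A : Type*} [Field A] [CharZero A] {ι : Type*}

/-- The subfield generated over `ℚ` by the entries of a tuple. -/
noncomputable def tupleField (x : ι → A) : IntermediateField ℚ A := adjoin ℚ (Set.range x)

/-- The tuple, viewed as a tuple of elements of the field generated by its entries. -/
noncomputable def tupleLift (x : ι → A) : ι → tupleField x :=
  fun i => ⟨x i, subset_adjoin ℚ (Set.range x) ⟨i, rfl⟩⟩

@[simp] theorem tupleLift_coe (x : ι → A) (i : ι) : ((tupleLift x i : tupleField x) : A) = x i := rfl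

variable [Finite ι]

theorem tupleField_finiteDimensional (x : ι → A) (hx : ∀ i, IsIntegral ℚ (x i)) :
    FiniteDimensional ℚ (tupleField x) :=
  IntermediateField.finiteDimensional_adjoin (by rintro _ ⟨i, rfl⟩; exact hx i)

theorem tupleField_numberField (x : ι → A) (hx : ∀ i, IsIntegral ℚ (x i)) :
    NumberField (tupleField x) :=
  haveI := tupleField_finiteDimensional x hx
  {}

open Classical in
/-- The **absolute logarithmic height** of a tuple of algebraic numbers (elements of a field
of characteristic zero that are algebraic over `ℚ`; junk value `0` otherwise). -/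
noncomputable def absLogHeight (x : ι → A) : ℝ :=
  if hx : ∀ i, IsIntegral ℚ (x i) then
    haveI := tupleField_numberField x hx
    (finrank ℚ (tupleField x) : ℝ)⁻¹ * logHeight (tupleLift x)
  else 0

theorem absLogHeight_def (x : ι → A) (hx : ∀ i, IsIntegral ℚ (x i)) :
    haveI := tupleField_numberField x hx
    absLogHeight x = (finrank ℚ (tupleField x) : ℝ)⁻¹ * logHeight (tupleLift x) := by
  unfold absLogHeight
  rw [dif_pos hx]

/-- A section of an injective ring homomorphism on a subfield contained in its range. -/
noncomputable def sectionFun {F : Type*} [Field F] (σ : F →+* A) (K : IntermediateField ℚ A)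
    (h : ∀ k ∈ K, ∃ a, σ a = k) (k : K) : F := Classical.choose (h k k.2)

theorem sectionFun_spec {F : Type*} [Field F] (σ : F →+* A) (K : IntermediateField ℚ A)
    (h : ∀ k ∈ K, ∃ a, σ a = k) (k : K) : σ (sectionFun σ K h k) = k :=
  Classical.choose_spec (h k k.2)

/-- A section of an injective ring homomorphism on a subfield contained in its range,
as a ring homomorphism. -/
noncomputable def sectionHom {F : Type*} [Field F] (σ : F →+* A) (K : IntermediateField ℚ A)
    (h : ∀ k ∈ K, ∃ a, σ a = k) : K →+* F where
  toFun := sectionFun σ K h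
  map_one' := σ.injective (by rw [sectionFun_spec]; simp)
  map_zero' := σ.injective (by rw [sectionFun_spec]; simp)
  map_mul' a b := σ.injective (by
    rw [map_mul, sectionFun_spec, sectionFun_spec, sectionFun_spec]; simp)
  map_add' a b := σ.injective (by
    rw [map_add, sectionFun_spec, sectionFun_spec, sectionFun_spec]; simp)

theorem sectionHom_spec {F : Type*} [Field F] (σ : F →+* A) (K : IntermediateField ℚ A)
    (h : ∀ k ∈ K, ∃ a, σ a = k) (k : K) : σ (sectionHom σ K h k) = k :=
  sectionFun_spec σ K h k

theorem isIntegral_ringHom_apply {F : Type*} [Field F] [NumberField F] (σ : F →+* A) (a : F) :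
    IsIntegral ℚ (σ a) :=
  (IsIntegral.of_finite ℚ a).map σ.toRatAlgHom

/-- **Well-definedness of the absolute height**: it can be computed in any number field
containing the entries of the tuple. -/
theorem absLogHeight_eq {F : Type*} [Field F] [NumberField F] (σ : F →+* A) (y : ι → F) :
    absLogHeight (fun i => σ (y i)) = (finrank ℚ F : ℝ)⁻¹ * logHeight y := by
  set x : ι → A := fun i => σ (y i) with hxdef
  have hx : ∀ i, IsIntegral ℚ (x i) := fun i => isIntegral_ringHom_apply σ (y i)
  haveI := tupleField_numberField x hx
  rw [absLogHeight_def x hx]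
  have hle : ∀ k ∈ tupleField x, ∃ a, σ a = k := by
    intro k hk
    have h1 : tupleField x ≤ σ.toRatAlgHom.fieldRange := by
      rw [tupleField, adjoin_le_iff]
      rintro _ ⟨i, rfl⟩
      exact ⟨y i, rfl⟩
    obtain ⟨a, ha⟩ := h1 hk
    exact ⟨a, ha⟩
  let τ := sectionHom σ (tupleField x) hle
  have hτ : (fun i => τ (tupleLift x i)) = y := by
    funext i
    apply σ.injective
    rw [sectionHom_spec]
    rfl
  rw [← normalized_logHeight_ringHom τ (tupleLift x), hτ]

end Abs

end Fermat.Agent.S17.H380
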