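import Fermat.Agent.S17.H380.AbsDef

set_option linter.unusedSectionVars false
set_option linter.style.haveILetI false

namespace Fermat.Agent.S17.H380

open NumberField Height Module IntermediateField

section Basic

variable {A : Type*} [Field A] [CharZero A] {ι : Type*} [Finite ι]

/-- The absolute height can be computed in any number subfield containing the entries. -/
theorem absLogHeight_of_mem (F : IntermediateField ℚ A) [NumberField F] (x : ι → A)
    (hx : ∀ i, x i ∈ F) :
    absLogHeight x = (finrank ℚ F : ℝ)⁻¹ * logHeight (fun i => (⟨x i, hx i⟩ : F)) :=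
  absLogHeight_eq (algebraMap F A) (fun i => (⟨x i, hx i⟩ : F))

theorem absLogHeight_nonneg (x : ι → A) : 0 ≤ absLogHeight x := by
  by_cases hx : ∀ i, IsIntegral ℚ (x i)
  · haveI := tupleField_numberField x hx
    rw [absLogHeight_def x hx]
    have h1 : (0 : ℝ) ≤ (finrank ℚ (tupleField x) : ℝ)⁻¹ := by positivity
    exact mul_nonneg h1 (logHeight_nonneg _)
  · unfold absLogHeight
    rw [dif_neg hx]

theorem absLogHeight_of_not_isIntegral (x : ι → A) (hx : ¬ ∀ i, IsIntegral ℚ (x i)) :
    absLogHeight x = 0 := by
  unfold absLogHeight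
  rw [dif_neg hx]

/-- The absolute height is invariant under ring homomorphisms (in particular under
field automorphisms: **Galois invariance**). -/
theorem absLogHeight_ringHom {B : Type*} [Field B] [CharZero B] (ρ : A →+* B) (x : ι → A) :
    absLogHeight (fun i => ρ (x i)) = absLogHeight x := by
  by_cases hx : ∀ i, IsIntegral ℚ (x i)
  · haveI := tupleField_numberField x hx
    rw [absLogHeight_def x hx]
    exact absLogHeight_eq (ρ.comp (algebraMap (tupleField x) A)) (tupleLift x)
  · rw [absLogHeight_of_not_isIntegral x hx, absLogHeight_of_not_isIntegral]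
    intro h
    apply hx
    intro i
    exact (isIntegral_algHom_iff ρ.toRatAlgHom ρ.injective).mp (h i)

theorem absLogHeight_zero : absLogHeight (0 : ι → A) = 0 := by
  have h := absLogHeight_eq (A := A) (algebraMap ℚ A) (0 : ι → ℚ)
  simp only [Pi.zero_apply, map_zero, logHeight_zero, mul_zero] at h
  exact h

/-- The absolute height is invariant under scaling by a nonzero algebraic number. -/
theorem absLogHeight_smul (x : ι → A) (hx : ∀ i, IsIntegral ℚ (x i)) {c : A} (hc : c ≠ 0)
    (hci : IsIntegral ℚ c) : absLogHeight (c • x) = absLogHeight x := by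
  -- a number field containing `c` and the `x i`
  let u : Option ι → A := fun o => Option.elim o c x
  have hu : ∀ o, IsIntegral ℚ (u o) := by
    rintro (_ | i)
    · exact hci
    · exact hx i
  haveI := tupleField_numberField u hu
  have hxm : ∀ i, x i ∈ tupleField u := fun i => subset_adjoin ℚ _ ⟨some i, rfl⟩
  have hcm : c ∈ tupleField u := subset_adjoin ℚ _ ⟨none, rfl⟩
  have hcx : ∀ i, (c • x) i ∈ tupleField u := fun i => by
    simpa using (tupleField u).mul_mem hcm (hxm i)
  rw [absLogHeight_of_mem (tupleField u) x hxm, absLogHeight_of_mem (tupleField u) (c • x) hcx]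
  congr 1
  have hc' : (⟨c, hcm⟩ : tupleField u) ≠ 0 := by
    intro h
    apply hc
    exact congrArg Subtype.val h
  rw [← logHeight_smul_eq_logHeight (fun i => (⟨x i, hxm i⟩ : tupleField u)) hc']
  congr 1

end Basic

end Fermat.Agent.S17.H380
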