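import Fermat.Agent.S17.H380.AbsSegre

set_option linter.unusedSectionVars false
set_option linter.style.haveILetI false

namespace Fermat.Agent.S17.H380

open NumberField Height Module IntermediateField

section Multi

universe u v

variable {A : Type*} [Field A] [CharZero A]
variable {α : Type u} [Fintype α] {ι : α → Type v} [∀ a, Fintype (ι a)]
variable {ι' : Type*} [Finite ι']

/-- **Multilinear maps**: if `M` is the coefficient matrix of a family of multilinear forms in
the tuples `x a` (`a : α`), then
`h( (∑_I M (j, I) ∏_a x a (I a))_j ) ≤ log #{I} + h(M) + ∑_a h(x a)`.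
To bound a multihomogeneous map of multidegree `(d_a)`, repeat the slot `a` `d_a` times. -/
theorem absLogHeight_multilinear_apply_le [DecidableEq α]
    (M : ι' × ((a : α) → ι a) → A) (x : (a : α) → ι a → A)
    (hM : ∀ p, IsIntegral ℚ (M p)) (hx : ∀ a i, IsIntegral ℚ (x a i)) :
    absLogHeight (fun j => ∑ I : (a : α) → ι a, M (j, I) * ∏ a, x a (I a))
      ≤ Real.log (Nat.card ((a : α) → ι a)) + absLogHeight M + ∑ a, absLogHeight (x a) := by
  have ht : ∀ I : (a : α) → ι a, IsIntegral ℚ (∏ a, x a (I a)) := fun I =>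
    IsIntegral.prod _ (fun a _ => hx a (I a))
  have h1 := absLogHeight_linearMap_apply_le M (fun I : (a : α) → ι a => ∏ a, x a (I a)) hM ht
  refine h1.trans ?_
  by_cases h0 : ∀ a, x a ≠ 0
  · rw [absLogHeight_fun_prod_eq hx h0]
  · push_neg at h0
    obtain ⟨a₀, ha₀⟩ := h0
    have hz : (fun I : (a : α) → ι a => ∏ a, x a (I a)) = 0 := by
      funext I
      exact Finset.prod_eq_zero (Finset.mem_univ a₀) (by rw [ha₀]; rfl)
    rw [hz, absLogHeight_zero]
    have : 0 ≤ ∑ a, absLogHeight (x a) := Finset.sum_nonneg (fun a _ => absLogHeight_nonneg _)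
    linarith

end Multi

end Fermat.Agent.S17.H380
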