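import Fermat.Agent.S17.H380.AbsBasic
import Mathlib.NumberTheory.Height.MvPolynomial

set_option linter.unusedSectionVars false
set_option linter.style.haveILetI false

namespace Fermat.Agent.S17.H380

open NumberField Height Module IntermediateField

section Two

variable {A : Type*} [Field A] [CharZero A] {ι ι' : Type*} [Finite ι] [Finite ι']

/-- The number field generated by the entries of two tuples. -/
noncomputable def pairField (x : ι → A) (y : ι' → A) : IntermediateField ℚ A :=
  tupleField (Sum.elim x y)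

theorem pairField_numberField (x : ι → A) (y : ι' → A) (hx : ∀ i, IsIntegral ℚ (x i))
    (hy : ∀ j, IsIntegral ℚ (y j)) : NumberField (pairField x y) :=
  tupleField_numberField _ (by rintro (i | j); exacts [hx i, hy j])

theorem mem_pairField_left (x : ι → A) (y : ι' → A) (i : ι) : x i ∈ pairField x y :=
  subset_adjoin ℚ _ ⟨Sum.inl i, rfl⟩

theorem mem_pairField_right (x : ι → A) (y : ι' → A) (j : ι') : y j ∈ pairField x y :=
  subset_adjoin ℚ _ ⟨Sum.inr j, rfl⟩

/-- **Segre formula** for absolute heights: the height of the multiplication table of two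
nonzero tuples is the sum of their heights. -/
theorem absLogHeight_fun_mul_eq {x : ι → A} {y : ι' → A} (hx : ∀ i, IsIntegral ℚ (x i))
    (hy : ∀ j, IsIntegral ℚ (y j)) (hx0 : x ≠ 0) (hy0 : y ≠ 0) :
    absLogHeight (fun a : ι × ι' => x a.1 * y a.2) = absLogHeight x + absLogHeight y := by
  haveI := pairField_numberField x y hx hy
  set F := pairField x y
  have hxm := mem_pairField_left x y
  have hym := mem_pairField_right x y
  rw [absLogHeight_of_mem F x hxm, absLogHeight_of_mem F y hym,
    absLogHeight_of_mem F (fun a : ι × ι' => x a.1 * y a.2)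
      (fun a => F.mul_mem (hxm a.1) (hym a.2)), ← mul_add]
  congr 1
  have hx0' : (fun i => (⟨x i, hxm i⟩ : F)) ≠ 0 := by
    obtain ⟨i, hi⟩ := Function.ne_iff.mp hx0
    exact Function.ne_iff.mpr ⟨i, fun h => hi (congrArg Subtype.val h)⟩
  have hy0' : (fun j => (⟨y j, hym j⟩ : F)) ≠ 0 := by
    obtain ⟨j, hj⟩ := Function.ne_iff.mp hy0
    exact Function.ne_iff.mpr ⟨j, fun h => hj (congrArg Subtype.val h)⟩
  rw [← logHeight_fun_mul_eq hx0' hy0']
  rfl

/-- Absolute heights do not increase when passing to a subtuple (or reindexing). -/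
theorem absLogHeight_comp_le (f : ι → ι') (y : ι' → A) (hy : ∀ j, IsIntegral ℚ (y j)) :
    absLogHeight (y ∘ f) ≤ absLogHeight y := by
  haveI := tupleField_numberField y hy
  have hym : ∀ j, y j ∈ tupleField y := fun j => subset_adjoin ℚ _ ⟨j, rfl⟩
  rw [absLogHeight_of_mem (tupleField y) y hym,
    absLogHeight_of_mem (tupleField y) (y ∘ f) (fun i => hym (f i))]
  refine mul_le_mul_of_nonneg_left ?_ (by positivity)
  exact logHeight_comp_le f (fun j => (⟨y j, hym j⟩ : tupleField y))

/-- Absolute heights are invariant under reindexing. -/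
theorem absLogHeight_comp_equiv (e : ι ≃ ι') (y : ι' → A) :
    absLogHeight (y ∘ e) = absLogHeight y := by
  by_cases hy : ∀ j, IsIntegral ℚ (y j)
  · haveI := tupleField_numberField y hy
    have hym : ∀ j, y j ∈ tupleField y := fun j => subset_adjoin ℚ _ ⟨j, rfl⟩
    rw [absLogHeight_of_mem (tupleField y) y hym,
      absLogHeight_of_mem (tupleField y) (y ∘ e) (fun i => hym (e i))]
    congr 1
    exact logHeight_comp_equiv e (fun j => (⟨y j, hym j⟩ : tupleField y))
  · rw [absLogHeight_of_not_isIntegral y hy, absLogHeight_of_not_isIntegral]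
    intro h
    apply hy
    intro j
    have := h (e.symm j)
    simpa using this

/-- **Linear maps**: the absolute height of `M x` is at most
`log #ι + absLogHeight M + absLogHeight x`. -/
theorem absLogHeight_linearMap_apply_le [Fintype ι] (M : ι' × ι → A) (x : ι → A)
    (hM : ∀ a, IsIntegral ℚ (M a)) (hx : ∀ i, IsIntegral ℚ (x i)) :
    absLogHeight (fun j => ∑ i, M (j, i) * x i)
      ≤ Real.log (Nat.card ι) + absLogHeight M + absLogHeight x := by
  haveI := pairField_numberField M x hM hx
  set F := pairField M x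
  have hMm := mem_pairField_left M x
  have hxm := mem_pairField_right M x
  have hval : ∀ j, (∑ i, M (j, i) * x i) ∈ F := fun j =>
    F.sum_mem (fun i _ => F.mul_mem (hMm (j, i)) (hxm i))
  rw [absLogHeight_of_mem F M hMm, absLogHeight_of_mem F x hxm,
    absLogHeight_of_mem F _ hval]
  have h := logHeight_linearMap_apply_le (fun a => (⟨M a, hMm a⟩ : F))
    (fun i => (⟨x i, hxm i⟩ : F))
  have hD : (0 : ℝ) < finrank ℚ F := by exact_mod_cast Module.finrank_pos
  rw [NumberField.totalWeight_eq_finrank] at h
  have heq : (fun j => (⟨∑ i, M (j, i) * x i, hval j⟩ : F))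
      = fun j => ∑ i, (⟨M (j, i), hMm (j, i)⟩ : F) * (⟨x i, hxm i⟩ : F) := by
    funext j
    apply Subtype.ext
    push_cast
    rfl
  rw [heq]
  have key : Real.log (Nat.card ι) + (finrank ℚ F : ℝ)⁻¹ * logHeight (fun a => (⟨M a, hMm a⟩ : F))
      + (finrank ℚ F : ℝ)⁻¹ * logHeight (fun i => (⟨x i, hxm i⟩ : F))
      = (finrank ℚ F : ℝ)⁻¹ * ((finrank ℚ F : ℝ) * Real.log (Nat.card ι)
          + logHeight (fun a => (⟨M a, hMm a⟩ : F)) + logHeight (fun i => (⟨x i, hxm i⟩ : F))) := by
    field_simp
  rw [key]
  exact mul_le_mul_of_nonneg_left h (by positivity)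

end Two


section Many

universe u v

variable {A : Type*} [Field A] [CharZero A]
variable {α : Type u} [Fintype α] {ι : α → Type v} [∀ a, Finite (ι a)]

/-- **Segre formula** for absolute heights, finite families: the height of the multiplication
table of a finite family of nonzero tuples is the sum of their heights. -/
theorem absLogHeight_fun_prod_eq {x : (a : α) → ι a → A} (hx : ∀ a i, IsIntegral ℚ (x a i))
    (hx0 : ∀ a, x a ≠ 0) :
    absLogHeight (fun I : (a : α) → ι a => ∏ a, x a (I a)) = ∑ a, absLogHeight (x a) := by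
  classical
  let u : (Σ a, ι a) → A := fun s => x s.1 s.2
  have hu : ∀ s, IsIntegral ℚ (u s) := fun s => hx s.1 s.2
  haveI := tupleField_numberField u hu
  set F := tupleField u
  have hm : ∀ a i, x a i ∈ F := fun a i => subset_adjoin ℚ _ ⟨⟨a, i⟩, rfl⟩
  have hval : ∀ I : (a : α) → ι a, (∏ a, x a (I a)) ∈ F := fun I =>
    F.prod_mem (fun a _ => hm a (I a))
  rw [absLogHeight_of_mem F _ hval,
    Finset.sum_congr rfl (fun a _ => absLogHeight_of_mem F (x a) (hm a)), ← Finset.mul_sum]
  congr 1
  have hx0' : ∀ a, (fun i => (⟨x a i, hm a i⟩ : F)) ≠ 0 := by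
    intro a
    obtain ⟨i, hi⟩ := Function.ne_iff.mp (hx0 a)
    exact Function.ne_iff.mpr ⟨i, fun h => hi (congrArg Subtype.val h)⟩
  rw [← logHeight_fun_prod_eq (x := fun a i => (⟨x a i, hm a i⟩ : F)) hx0']
  congr 1
  funext I
  apply Subtype.ext
  push_cast
  rfl

end Many

end Fermat.Agent.S17.H380
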