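import Fermat.Agent.S17.H710.Wall.Defs
import Fermat.Agent.S17.H380.AbsMulti
import Fermat.Agent.S17.H380.AbsSegre

/-!
# S17 / tower H — wall leaves A4, A5, A6, A7 (helper380)

Heights of the matrices / columns of values of the wall (`S17/H710/Wall/Defs.lean`):

* `htBetaMat : HtBetaMatStatement K`  (A4, multilinear upper bound),
* `htWMat    : HtWMatStatement K`     (A5, linear upper bound),
* `htBetaCol : HtBetaColStatement K`  (A6, exact Segre),
* `htWCol    : HtWColStatement K`     (A7, exact Segre),

for a field `K` of characteristic `0` which is algebraic over `ℚ`.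
-/

set_option linter.unusedSectionVars false
set_option linter.style.haveILetI false
set_option autoImplicit false

noncomputable section

namespace Fermat.Agent.S17.H380

open Fermat.Agent.S17.HWall Fermat.Agent.S17.HContract Fermat.Agent.S17.Wall

section WallHt

variable (K : Type*) [Field K] [CharZero K] [Algebra.IsAlgebraic ℚ K]

theorem isIntegral_all (a : K) : IsIntegral ℚ a := Algebra.IsIntegral.isIntegral a

/-- **A6** (exact Segre). -/
theorem htBetaCol : HtBetaColStatement K := by
  intro n d u z h
  exact absLogHeight_fun_prod_eq (x := fun i => wedge (u i) (z i))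
    (fun _ _ => isIntegral_all K _) h

/-- **A7** (exact Segre): `h(v ⊗ z^{⊗e}) = h(v) + e h(z)`. -/
theorem htWCol : HtWColStatement K := by
  intro n e ρ _ v z hv hz
  have hpow : (fun α : Fin e → Fin n => ∏ k, z (α k)) ≠ 0 := by
    obtain ⟨i, hi⟩ := Function.ne_iff.mp hz
    refine Function.ne_iff.mpr ⟨fun _ => i, ?_⟩
    simpa using pow_ne_zero e hi
  have h1 := absLogHeight_fun_mul_eq (x := v) (y := fun α : Fin e → Fin n => ∏ k, z (α k))
    (fun _ => isIntegral_all K _) (fun _ => isIntegral_all K _) hv hpow
  have h2 := absLogHeight_fun_prod_eq (x := fun _ : Fin e => z)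
    (fun _ _ => isIntegral_all K _) (fun _ => hz)
  rw [Finset.sum_const, Finset.card_univ, Fintype.card_fin, nsmul_eq_mul] at h2
  show absLogHeight _ = absLogHeight v + (e : ℝ) * absLogHeight z
  rw [← h2]
  exact h1

/-- **A5** (upper bound for `wMat`, linear in `W`). -/
theorem htWMat : HtWMatStatement K := by
  classical
  intro n e ρ c _ _ y
  let M : ((ρ × (Fin e → Fin n)) × c) × (ρ × Fin n) → K := fun a =>
    if a.2.1 = a.1.1.1 then y a.1.2 a.2.2 * ∏ k, y a.1.2 (a.1.1.2 k) else 0
  refine ⟨Real.log (Nat.card (ρ × Fin n)) + absLogHeight M, fun W => ?_⟩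
  have key := absLogHeight_linearMap_apply_le M (fun q : ρ × Fin n => W q.1 q.2)
    (fun _ => isIntegral_all K _) (fun _ => isIntegral_all K _)
  have heq : (fun q : (ρ × (Fin e → Fin n)) × c => wMat W y q.1 q.2) =
      fun j => ∑ i, M (j, i) * (fun q : ρ × Fin n => W q.1 q.2) i := by
    funext q
    obtain ⟨⟨r, α⟩, j⟩ := q
    simp only [wMat, M, dot, dotProduct]
    rw [Fintype.sum_prod_type]
    rw [Finset.sum_eq_single r]
    · simp only [if_true]
      rw [Finset.sum_mul]
      refine Finset.sum_congr rfl fun i _ => ?_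
      ring
    · intro r' _ hr'
      refine Finset.sum_eq_zero fun i _ => ?_
      rw [if_neg hr', zero_mul]
    · intro h
      exact absurd (Finset.mem_univ r) h
  show absLogHeight _ ≤ absLogHeight _ + _
  rw [heq]
  linarith

/-- **A4** (upper bound for `betaMat`, multilinear in `u`). -/
theorem htBetaMat : HtBetaMatStatement K := by
  classical
  intro n d c _ y
  let cf : ((Fin d → Fin n × Fin n) × c) → Fin d → Fin n → K := fun q i k =>
    (if k = (q.1 i).1 then y q.2 (q.1 i).2 else 0) - (if k = (q.1 i).2 then y q.2 (q.1 i).1 else 0)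
  let M : ((Fin d → Fin n × Fin n) × c) × (Fin d → Fin n) → K := fun a =>
    ∏ i, cf a.1 i (a.2 i)
  refine ⟨Real.log (Nat.card (Fin d → Fin n)) + absLogHeight M, fun u => ?_⟩
  have key := absLogHeight_multilinear_apply_le (α := Fin d) (ι := fun _ => Fin n) M u
    (fun _ => isIntegral_all K _) (fun _ _ => isIntegral_all K _)
  have heq : (fun q : (Fin d → Fin n × Fin n) × c => betaMat u y q.1 q.2) =
      fun j => ∑ I : Fin d → Fin n, M (j, I) * ∏ a, u a (I a) := by
    funext q
    obtain ⟨s, j⟩ := q
    simp only [betaMat, M]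
    have h1 : ∀ i, wedge (u i) (y j) (s i) = ∑ k, cf (s, j) i k * u i k := by
      intro i
      simp only [cf, wedge, sub_mul, Finset.sum_sub_distrib, ite_mul, zero_mul,
        Finset.sum_ite_eq', Finset.mem_univ, if_true]
      ring
    rw [Finset.prod_congr rfl fun i _ => h1 i, Finset.prod_univ_sum]
    rw [Fintype.piFinset_univ]
    refine Finset.sum_congr rfl fun I _ => ?_
    rw [Finset.prod_mul_distrib]
  show absLogHeight _ ≤ _ + _
  rw [heq]
  linarith

end WallHt

end Fermat.Agent.S17.H380
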