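import Fermat.Agent.S17.H380.AbsEval
import Fermat.Agent.S17.H500.NullCert

set_option linter.unusedSectionVars false

namespace Fermat.Agent.S17.H380

open NumberField Height Module MvPolynomial

section OnCone

variable {K₀ A : Type*} [Field K₀] [NumberField K₀] [Field A] [CharZero A] [Algebra K₀ A]
variable {ι ι' : Type*} [Finite ι] [Fintype ι']

/-- **Absolute height lower bound on a closed cone.**  If the homogeneous polynomials `p j` of
degree `N` (over a number field `K₀`) have no common zero other than the origin on the cone of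
the homogeneous ideal `I` (over an algebraically closed extension `L`), then there is a constant
`C` such that for ALL algebraic points `x` of the cone (with coordinates in any field `A` of
characteristic zero over `K₀`)  `C + N * absLogHeight x ≤ absLogHeight (p j (x))_j`. -/
theorem absLogHeight_eval_ge_on (L : Type*) [Field L] [Algebra K₀ L] [IsAlgClosed L]
    (I : Ideal (MvPolynomial ι K₀)) (hI : H500.HomIdeal I) {N : ℕ}
    (p : ι' → MvPolynomial ι K₀) (hp : ∀ j, (p j).IsHomogeneous N)
    (h0 : ∀ x : ι → L, (∀ f ∈ I, aeval x f = 0) → (∀ j, aeval x (p j) = 0) → x = 0) :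
    ∃ C : ℝ, ∀ x : ι → A, (∀ i, IsIntegral ℚ (x i)) → (∀ f ∈ I, aeval x f = 0) →
      C + N * absLogHeight x ≤ absLogHeight (fun j => aeval x (p j)) := by
  obtain ⟨M, q, hq, hqI⟩ := H500.exists_certificate L I hI p hp h0
  refine ⟨-(Real.log (Nat.card ι') +
    (finrank ℚ K₀ : ℝ)⁻¹ * Real.log (max (mulHeightBound q) 1)), fun x hx hxI => ?_⟩
  refine absLogHeight_eval_ge hq p hx (fun k => ?_)
  have := hxI _ (hqI k)
  simpa [sub_eq_zero] using this

/-- Two-sided version: `|absLogHeight (p (x)) - N * absLogHeight x| ≤ C` on the cone of `I`,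
uniformly over all algebraic points. -/
theorem abs_absLogHeight_eval_sub_le_on (L : Type*) [Field L] [Algebra K₀ L] [IsAlgClosed L]
    (I : Ideal (MvPolynomial ι K₀)) (hI : H500.HomIdeal I) {N : ℕ}
    (p : ι' → MvPolynomial ι K₀) (hp : ∀ j, (p j).IsHomogeneous N)
    (h0 : ∀ x : ι → L, (∀ f ∈ I, aeval x f = 0) → (∀ j, aeval x (p j) = 0) → x = 0) :
    ∃ C : ℝ, ∀ x : ι → A, (∀ i, IsIntegral ℚ (x i)) → (∀ f ∈ I, aeval x f = 0) →
      |absLogHeight (fun j => aeval x (p j)) - N * absLogHeight x| ≤ C := by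
  obtain ⟨C₂, hC₂⟩ := absLogHeight_eval_ge_on (A := A) L I hI p hp h0
  set C₁ := (finrank ℚ K₀ : ℝ)⁻¹ * Real.log (max (mulHeightBound p) 1) with hC₁
  refine ⟨max C₁ (-C₂), fun x hx hxI => abs_sub_le_iff.mpr ⟨?_, ?_⟩⟩
  · have := absLogHeight_eval_le hp x hx
    have h2 := le_max_left C₁ (-C₂)
    linarith
  · have := hC₂ x hx hxI
    have h2 := le_max_right C₁ (-C₂)
    linarith

end OnCone

end Fermat.Agent.S17.H380
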