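import Fermat.Agent.S17.H380.AbsRel
import Mathlib.NumberTheory.Height.MvPolynomial

set_option linter.unusedSectionVars false

namespace Fermat.Agent.S17.H380

open NumberField Height Module MvPolynomial

section FinitePart

variable {K L : Type*} [Field K] [NumberField K] [Field L] [NumberField L] [Algebra K L]
variable {ι : Type*} [Finite ι]

theorem prod_infinitePlace_iSup_pos {x : ι → K} (hx : x ≠ 0) :
    0 < ∏ v : InfinitePlace K, (⨆ i, v (x i)) ^ v.mult := by
  obtain ⟨i₀, hi₀⟩ := Function.ne_iff.mp hx
  refine Finset.prod_pos fun v _ => pow_pos ?_ _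
  refine lt_of_lt_of_le ?_ (Finite.le_ciSup_of_le i₀ le_rfl)
  exact (InfinitePlace.pos_iff (w := v)).mpr hi₀

/-- **Degree formula, finite part**. -/
theorem finprod_finitePlace_iSup_algebraMap {x : ι → K} (hx : x ≠ 0) :
    ∏ᶠ w : FinitePlace L, ⨆ i, w (algebraMap K L (x i))
      = (∏ᶠ v : FinitePlace K, ⨆ i, v (x i)) ^ finrank K L := by
  have hx' : (fun i => algebraMap K L (x i)) ≠ 0 := by
    obtain ⟨i₀, hi₀⟩ := Function.ne_iff.mp hx
    exact Function.ne_iff.mpr ⟨i₀, by simpa using hi₀⟩
  have h := mulHeight_algebraMap (L := L) x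
  rw [NumberField.mulHeight_eq hx, NumberField.mulHeight_eq hx', mul_pow] at h
  have hinf : ∏ w : InfinitePlace L, (⨆ i, w (algebraMap K L (x i))) ^ w.mult
      = (∏ v : InfinitePlace K, (⨆ i, v (x i)) ^ v.mult) ^ finrank K L := by
    rw [← prod_infinitePlace_comap (L := L) (fun v : InfinitePlace K => ⨆ i, v (x i))]
    rfl
  rw [hinf] at h
  exact mul_left_cancel₀ (pow_pos (prod_infinitePlace_iSup_pos hx) _).ne' h

end FinitePart


section Bound

variable {K L : Type*} [Field K] [NumberField K] [Field L] [NumberField L] [Algebra K L]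
variable {ι ι' : Type*} [Finite ι']

/-- A supremum of maxima with `1` of suprema, as a single supremum over an `Option`-indexed
family. -/
theorem iSup_max_iSup_one_eq [Nonempty ι'] {S : ι' → Type*} [∀ j, Finite (S j)]
    (c : (j : ι') → S j → ℝ) :
    ⨆ j, max (⨆ s : S j, c j s) 1
      = ⨆ i : Option (Σ j, S j), Option.elim i 1 (fun a => c a.1 a.2) := by
  refine le_antisymm (ciSup_le fun j => max_le ?_ ?_) (ciSup_le fun i => ?_)
  · refine Real.iSup_le (fun s => ?_) ?_
    · exact Finite.le_ciSup_of_le (some ⟨j, s⟩) le_rfl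
    · exact le_trans zero_le_one (Finite.le_ciSup_of_le none le_rfl)
  · exact Finite.le_ciSup_of_le none le_rfl
  · obtain ⟨j₀⟩ := ‹Nonempty ι'›
    rcases i with _ | ⟨j, s⟩
    · exact Finite.le_ciSup_of_le j₀ (le_max_right _ _)
    · refine Finite.le_ciSup_of_le j (le_max_of_le_left ?_)
      exact Finite.le_ciSup_of_le s le_rfl

/-- The tuple consisting of `1` and all the coefficients of a family of polynomials. -/
noncomputable def coeffTuple (p : ι' → MvPolynomial ι K) :
    Option (Σ j, (p j).support) → K :=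
  fun i => Option.elim i 1 (fun a => coeff a.2.1 (p a.1))

theorem coeffTuple_ne_zero (p : ι' → MvPolynomial ι K) : coeffTuple p ≠ 0 :=
  Function.ne_iff.mpr ⟨none, by simp [coeffTuple]⟩

theorem iSup_support_map (w : AbsoluteValue L ℝ) (q : MvPolynomial ι K) :
    ⨆ s : (map (algebraMap K L) q).support, w (coeff s.1 (map (algebraMap K L) q))
      = ⨆ s : q.support, w (algebraMap K L (coeff s.1 q)) := by
  have hsupp : (map (algebraMap K L) q).support = q.support :=
    support_map_of_injective q (algebraMap K L).injective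
  refine Equiv.iSup_congr (Equiv.subtypeEquivRight (fun s => by rw [hsupp])) (fun s => ?_)
  simp [coeff_map]

/-- The nonarchimedean local factor of `mulHeightBound` as a supremum over `coeffTuple`. -/
theorem nonarch_factor_eq [Nonempty ι'] (v : AbsoluteValue K ℝ) (p : ι' → MvPolynomial ι K) :
    ⨆ j, max (⨆ s : (p j).support, v (coeff s.1 (p j))) 1 = ⨆ i, v (coeffTuple p i) := by
  rw [iSup_max_iSup_one_eq (fun j (s : (p j).support) => v (coeff s.1 (p j)))]
  refine iSup_congr fun i => ?_
  rcases i with _ | a <;> simp [coeffTuple]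

theorem nonarch_factor_map_eq [Nonempty ι'] (w : AbsoluteValue L ℝ)
    (p : ι' → MvPolynomial ι K) :
    ⨆ j, max (⨆ s : (map (algebraMap K L) (p j)).support,
        w (coeff s.1 (map (algebraMap K L) (p j)))) 1
      = ⨆ i, w (algebraMap K L (coeffTuple p i)) := by
  simp_rw [iSup_support_map]
  rw [iSup_max_iSup_one_eq (fun j (s : (p j).support) => w (algebraMap K L (coeff s.1 (p j))))]
  refine iSup_congr fun i => ?_
  rcases i with _ | a <;> simp [coeffTuple]

theorem arch_term_map_eq (w : AbsoluteValue L ℝ) (q : MvPolynomial ι K) :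
    (AddMonoidAlgebra.coeff (map (algebraMap K L) q)).sum (fun _ c => w c)
      = (AddMonoidAlgebra.coeff q).sum (fun _ c => w (algebraMap K L c)) := by
  have hsupp : (map (algebraMap K L) q).support = q.support :=
    support_map_of_injective q (algebraMap K L).injective
  change ∑ s ∈ (map (algebraMap K L) q).support, w (coeff s (map (algebraMap K L) q))
    = ∑ s ∈ q.support, w (algebraMap K L (coeff s q))
  rw [hsupp]
  refine Finset.sum_congr rfl fun s _ => ?_
  rw [coeff_map]

/-- **Degree formula for `mulHeightBound`**. -/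
theorem mulHeightBound_map [Nonempty ι'] (p : ι' → MvPolynomial ι K) :
    mulHeightBound (fun j => map (algebraMap K L) (p j)) = mulHeightBound p ^ finrank K L := by
  rw [mulHeightBound_eq, mulHeightBound_eq, mul_pow, prod_archAbsVal_eq, prod_archAbsVal_eq,
    prod_nonarchAbsVal_eq (fun v => ⨆ j, max (⨆ s : (p j).support, v (coeff s.1 (p j))) 1),
    prod_nonarchAbsVal_eq (fun w => ⨆ j, max (⨆ s : (map (algebraMap K L) (p j)).support,
      w (coeff s.1 (map (algebraMap K L) (p j)))) 1)]
  congr 1
  · rw [← prod_infinitePlace_comap (L := L)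
      (fun v : InfinitePlace K => ⨆ j, (AddMonoidAlgebra.coeff (p j)).sum (fun _ c => v.val c))]
    refine Finset.prod_congr rfl fun w _ => ?_
    congr 1
    refine iSup_congr fun j => ?_
    rw [arch_term_map_eq]
    rfl
  · simp_rw [nonarch_factor_map_eq, nonarch_factor_eq]
    exact finprod_finitePlace_iSup_algebraMap (L := L) (coeffTuple_ne_zero p)

end Bound

end Fermat.Agent.S17.H380
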