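import Fermat.Agent.S17.H380.AbsBasic
import Fermat.Agent.S17.H380.AbsBound

set_option linter.unusedSectionVars false
set_option linter.style.haveILetI false

namespace Fermat.Agent.S17.H380

open NumberField Height Module IntermediateField MvPolynomial

section Common

variable {K₀ A : Type*} [Field K₀] [NumberField K₀] [Field A] [CharZero A] [Algebra K₀ A]
variable {ι : Type*} [Finite ι]

/-- The number field generated inside `A` by the image of a number field `K₀` and the entries
of a tuple of algebraic elements. -/
noncomputable def commonField (K₀ : Type*) [Field K₀] [NumberField K₀] [Algebra K₀ A]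
    (x : ι → A) : IntermediateField ℚ A :=
  tupleField x ⊔ (algebraMap K₀ A).toRatAlgHom.fieldRange

theorem commonField_numberField (x : ι → A) (hx : ∀ i, IsIntegral ℚ (x i)) :
    NumberField (commonField K₀ x) := by
  haveI := tupleField_finiteDimensional x hx
  haveI : FiniteDimensional ℚ (algebraMap K₀ A).toRatAlgHom.fieldRange :=
    (AlgHom.equivFieldRange (algebraMap K₀ A).toRatAlgHom).toLinearEquiv.finiteDimensional
  haveI : FiniteDimensional ℚ (commonField K₀ x) := by
    unfold commonField; infer_instance
  exact {}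

theorem mem_commonField (x : ι → A) (i : ι) : x i ∈ commonField K₀ x :=
  (le_sup_left : tupleField x ≤ commonField K₀ x) (subset_adjoin ℚ _ ⟨i, rfl⟩)

theorem algebraMap_mem_commonField (x : ι → A) (k : K₀) :
    algebraMap K₀ A k ∈ commonField K₀ x :=
  (le_sup_right : (algebraMap K₀ A).toRatAlgHom.fieldRange ≤ commonField K₀ x) ⟨k, rfl⟩

/-- The tuple as a tuple in the common field. -/
noncomputable def commonLift (K₀ : Type*) [Field K₀] [NumberField K₀] [Algebra K₀ A]
    (x : ι → A) : ι → commonField K₀ x := fun i => ⟨x i, mem_commonField x i⟩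

/-- The structure map of `K₀` into the common field. -/
noncomputable def commonMap (K₀ : Type*) [Field K₀] [NumberField K₀] [Algebra K₀ A]
    (x : ι → A) : K₀ →+* commonField K₀ x :=
  (algebraMap K₀ A).codRestrict (commonField K₀ x).toSubfield.toSubring
    (fun k => algebraMap_mem_commonField x k)

theorem commonMap_coe (x : ι → A) (k : K₀) :
    ((commonMap K₀ x k : commonField K₀ x) : A) = algebraMap K₀ A k := rfl

theorem coe_eval_commonLift (x : ι → A) (q : MvPolynomial ι K₀) :
    ((eval (commonLift K₀ x) (map (commonMap K₀ x) q) : commonField K₀ x) : A) = aeval x q := by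
  rw [eval_map, aeval_def]
  have := eval₂_comp_left (algebraMap (commonField K₀ x) A) (commonMap K₀ x) (commonLift K₀ x) q
  exact this

end Common


section Eval

variable {K₀ A : Type*} [Field K₀] [NumberField K₀] [Field A] [CharZero A] [Algebra K₀ A]
variable {ι ι' : Type*} [Finite ι]

theorem mulHeightBound_nonneg {K : Type*} [Field K] [AdmissibleAbsValues K]
    (p : ι' → MvPolynomial ι K) : 0 ≤ mulHeightBound p := by
  rw [mulHeightBound_eq]
  refine mul_nonneg (Multiset.prod_map_nonneg fun v _ => ?_) (finprod_nonneg fun v => ?_)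
  · exact Real.iSup_nonneg fun j => Finsupp.sum_nonneg fun s _ => v.nonneg _
  · exact Real.iSup_nonneg fun j => le_trans zero_le_one (le_max_right _ _)

theorem log_max_pow_one {B : ℝ} (hB : 0 ≤ B) (d : ℕ) :
    Real.log (max (B ^ d) 1) = d * Real.log (max B 1) := by
  have h : max (B ^ d) 1 = (max B 1) ^ d := by
    rcases le_total B 1 with h1 | h1
    · rw [max_eq_right h1, max_eq_right (pow_le_one₀ hB h1), one_pow]
    · rw [max_eq_left h1, max_eq_left (one_le_pow₀ h1)]
  rw [h, Real.log_pow]

theorem finrank_commonField (x : ι → A) (hx : ∀ i, IsIntegral ℚ (x i)) :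
    haveI := commonField_numberField (K₀ := K₀) x hx
    letI := (commonMap K₀ x).toAlgebra
    (finrank ℚ K₀ : ℝ) * (finrank K₀ (commonField K₀ x) : ℝ)
      = (finrank ℚ (commonField K₀ x) : ℝ) := by
  haveI := commonField_numberField (K₀ := K₀) x hx
  letI := (commonMap K₀ x).toAlgebra
  rw [← Nat.cast_mul, Module.finrank_mul_finrank ℚ K₀ (commonField K₀ x)]

theorem absLogHeight_empty [IsEmpty ι'] (y : ι' → A) : absLogHeight y = 0 := by
  rw [show y = 0 from Subsingleton.elim _ _]
  exact absLogHeight_zero

/-- **Upper bound for the absolute height of the image under a polynomial map**, with an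
explicit constant depending only on the polynomials. -/
theorem absLogHeight_eval_le [Finite ι'] {N : ℕ} {p : ι' → MvPolynomial ι K₀}
    (hp : ∀ j, (p j).IsHomogeneous N) (x : ι → A) (hx : ∀ i, IsIntegral ℚ (x i)) :
    absLogHeight (fun j => aeval x (p j))
      ≤ (finrank ℚ K₀ : ℝ)⁻¹ * Real.log (max (mulHeightBound p) 1) + N * absLogHeight x := by
  have hd₀ : (0 : ℝ) < finrank ℚ K₀ := by exact_mod_cast Module.finrank_pos
  rcases isEmpty_or_nonempty ι' with hι' | hι'
  · rw [absLogHeight_empty]
    have h1 : 0 ≤ Real.log (max (mulHeightBound p) 1) := Real.log_nonneg (le_max_right _ _)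
    have h2 := absLogHeight_nonneg x
    positivity
  haveI := commonField_numberField (K₀ := K₀) x hx
  letI := (commonMap K₀ x).toAlgebra
  have hM := logHeight_eval_le (K := commonField K₀ x)
    (p := fun j => map (commonMap K₀ x) (p j)) (fun j => (hp j).map _) (commonLift K₀ x)
  have hB : mulHeightBound (fun j => map (commonMap K₀ x) (p j))
      = mulHeightBound p ^ finrank K₀ (commonField K₀ x) :=
    mulHeightBound_map (K := K₀) (L := commonField K₀ x) p
  have h1 : absLogHeight (fun j => aeval x (p j)) = (finrank ℚ (commonField K₀ x) : ℝ)⁻¹ *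
      logHeight (fun j => eval (commonLift K₀ x) (map (commonMap K₀ x) (p j))) := by
    rw [← absLogHeight_eq (algebraMap (commonField K₀ x) A)]
    congr 1
    funext j
    exact (coe_eval_commonLift x (p j)).symm
  have h2 : absLogHeight x = (finrank ℚ (commonField K₀ x) : ℝ)⁻¹ *
      logHeight (commonLift K₀ x) :=
    absLogHeight_eq (algebraMap (commonField K₀ x) A) (commonLift K₀ x)
  have hD := finrank_commonField (K₀ := K₀) x hx
  have hDpos : (0 : ℝ) < finrank ℚ (commonField K₀ x) := by exact_mod_cast Module.finrank_pos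
  have hdpos : (0 : ℝ) < finrank K₀ (commonField K₀ x) := by
    have : (0:ℝ) < (finrank ℚ K₀ : ℝ) * (finrank K₀ (commonField K₀ x) : ℝ) := by
      rw [hD]; exact hDpos
    exact (mul_pos_iff_of_pos_left hd₀).mp this
  rw [hB, log_max_pow_one (mulHeightBound_nonneg p)] at hM
  rw [h1, h2, ← hD]
  have key : ((finrank ℚ K₀ : ℝ) * (finrank K₀ (commonField K₀ x) : ℝ))⁻¹ *
      ((finrank K₀ (commonField K₀ x) : ℝ) * Real.log (max (mulHeightBound p) 1)
        + N * logHeight (commonLift K₀ x))
      = (finrank ℚ K₀ : ℝ)⁻¹ * Real.log (max (mulHeightBound p) 1) +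
        N * (((finrank ℚ K₀ : ℝ) * (finrank K₀ (commonField K₀ x) : ℝ))⁻¹ *
          logHeight (commonLift K₀ x)) := by
    field_simp
  rw [← key]
  exact mul_le_mul_of_nonneg_left hM (by positivity)


/-- **Lower bound for the absolute height of the image under a polynomial map** in the presence
of a Nullstellensatz certificate (valid at the point `x`), with an explicit constant depending
only on the certificate. -/
theorem absLogHeight_eval_ge [Fintype ι'] {M N : ℕ} {q : ι × ι' → MvPolynomial ι K₀}
    (hq : ∀ a, (q a).IsHomogeneous M) (p : ι' → MvPolynomial ι K₀) {x : ι → A}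
    (hx : ∀ i, IsIntegral ℚ (x i))
    (h : ∀ k, ∑ j, aeval x (q (k, j)) * aeval x (p j) = (x k) ^ (M + N)) :
    -(Real.log (Nat.card ι') + (finrank ℚ K₀ : ℝ)⁻¹ * Real.log (max (mulHeightBound q) 1))
        + N * absLogHeight x
      ≤ absLogHeight (fun j => aeval x (p j)) := by
  have hd₀ : (0 : ℝ) < finrank ℚ K₀ := by exact_mod_cast Module.finrank_pos
  have hlogB : 0 ≤ Real.log (max (mulHeightBound q) 1) := Real.log_nonneg (le_max_right _ _)
  have hlogc : 0 ≤ Real.log (Nat.card ι') := Real.log_natCast_nonneg _
  have hC : 0 ≤ Real.log (Nat.card ι') +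
      (finrank ℚ K₀ : ℝ)⁻¹ * Real.log (max (mulHeightBound q) 1) := by positivity
  rcases isEmpty_or_nonempty ι' with hι' | hι'
  · have hx0 : x = 0 := by
      funext k
      have := h k
      simp only [Finset.univ_eq_empty, Finset.sum_empty] at this
      exact eq_zero_of_pow_eq_zero this.symm
    rw [absLogHeight_empty (fun j => aeval x (p j)), hx0, absLogHeight_zero]
    simp only [mul_zero, add_zero, neg_nonpos]
    exact hC
  rcases isEmpty_or_nonempty ι with hι | hι
  · rw [absLogHeight_empty x]
    have := absLogHeight_nonneg (fun j => aeval x (p j))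
    simp only [mul_zero, add_zero]
    linarith
  haveI := commonField_numberField (K₀ := K₀) x hx
  letI := (commonMap K₀ x).toAlgebra
  have hlift : ∀ k, ∑ j, (map (commonMap K₀ x) (q (k, j))).eval (commonLift K₀ x) *
      (map (commonMap K₀ x) (p j)).eval (commonLift K₀ x) = (commonLift K₀ x k) ^ (M + N) := by
    intro k
    apply Subtype.ext
    have := h k
    simp only [← coe_eval_commonLift] at this
    push_cast
    rw [this]
    rfl
  have hM := logHeight_eval_ge (K := commonField K₀ x)
    (q := fun a => map (commonMap K₀ x) (q a)) (fun a => (hq a).map _)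
    (fun j => map (commonMap K₀ x) (p j)) hlift
  have hB : mulHeightBound (fun a => map (commonMap K₀ x) (q a))
      = mulHeightBound q ^ finrank K₀ (commonField K₀ x) :=
    mulHeightBound_map (K := K₀) (L := commonField K₀ x) q
  have h1 : absLogHeight (fun j => aeval x (p j)) = (finrank ℚ (commonField K₀ x) : ℝ)⁻¹ *
      logHeight (fun j => eval (commonLift K₀ x) (map (commonMap K₀ x) (p j))) := by
    rw [← absLogHeight_eq (algebraMap (commonField K₀ x) A)]
    congr 1
    funext j
    exact (coe_eval_commonLift x (p j)).symm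
  have h2 : absLogHeight x = (finrank ℚ (commonField K₀ x) : ℝ)⁻¹ *
      logHeight (commonLift K₀ x) :=
    absLogHeight_eq (algebraMap (commonField K₀ x) A) (commonLift K₀ x)
  have hD := finrank_commonField (K₀ := K₀) x hx
  have hDpos : (0 : ℝ) < finrank ℚ (commonField K₀ x) := by exact_mod_cast Module.finrank_pos
  have hdpos : (0 : ℝ) < finrank K₀ (commonField K₀ x) := by
    have : (0:ℝ) < (finrank ℚ K₀ : ℝ) * (finrank K₀ (commonField K₀ x) : ℝ) := by
      rw [hD]; exact hDpos
    exact (mul_pos_iff_of_pos_left hd₀).mp this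
  have hcard : (0 : ℝ) < Nat.card ι' := by exact_mod_cast Nat.card_pos
  have hmaxpos : (0 : ℝ) < max (mulHeightBound q ^ finrank K₀ (commonField K₀ x)) 1 :=
    lt_of_lt_of_le zero_lt_one (le_max_right _ _)
  rw [hB, NumberField.totalWeight_eq_finrank, Real.log_mul (pow_pos hcard _).ne' hmaxpos.ne',
    Real.log_pow, log_max_pow_one (mulHeightBound_nonneg q), ← hD] at hM
  rw [h1, h2, ← hD]
  have key : ((finrank ℚ K₀ : ℝ) * (finrank K₀ (commonField K₀ x) : ℝ))⁻¹ *
      (-(((finrank ℚ K₀ : ℝ) * (finrank K₀ (commonField K₀ x) : ℝ)) * Real.log (Nat.card ι')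
          + (finrank K₀ (commonField K₀ x) : ℝ) * Real.log (max (mulHeightBound q) 1))
        + N * logHeight (commonLift K₀ x))
      = -(Real.log (Nat.card ι') +
            (finrank ℚ K₀ : ℝ)⁻¹ * Real.log (max (mulHeightBound q) 1)) +
        N * (((finrank ℚ K₀ : ℝ) * (finrank K₀ (commonField K₀ x) : ℝ))⁻¹ *
          logHeight (commonLift K₀ x)) := by
    field_simp
  rw [← key]
  refine mul_le_mul_of_nonneg_left ?_ (by positivity)
  exact hM

end Eval

end Fermat.Agent.S17.H380
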