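import Fermat.Agent.S17.H17.HContract
import Fermat.Agent.S17.H617.HWallStmt
import Fermat.Agent.S17.H380.LocalGlobal
import Fermat.Agent.Lib.RR.H439.Pencil
import Fermat.Agent.S17.H380.AbsSegre
import Fermat.Agent.S17.H380.AbsEval

set_option linter.unusedSectionVars false
set_option linter.style.haveILetI false
set_option autoImplicit false

noncomputable section

open AlgebraicCurve

namespace Fermat.Agent.S17.H380

open Fermat.Agent.Lib.RR Fermat.Agent.S17.HWall Fermat.Agent.S17.HContract
open Fermat.Agent.S17.H830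

section Geometry

variable {K F : Type*} [Field K] [Field F] [Algebra K F] [FF1 K F]

/-- The representative `pt A` of a point of the embedded curve is nonzero (base point freeness
of `|m∞|`). -/
theorem pt_ne_zero (E : EmbData K F) (A : Place K F) : E.pt A ≠ 0 := by
  have hdeg : Divisor.degree (E.m • prim E.vinf : Divisor K F) = E.m := by
    rw [map_nsmul]
    unfold prim
    rw [Divisor.degree_single, FF1.deg_eq_one]
    simp
  have hE : 2 * (genusFF K F : ℤ) ≤ Divisor.degree (E.m • prim E.vinf : Divisor K F) := by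
    rw [hdeg, genusFF_eq_genusR]
    have := E.hm
    omega
  obtain ⟨f, hf, hf0, hord⟩ := H439.exists_mem_L_ord_eq hE A
  rw [← E.x_span] at hf
  obtain ⟨b, hb⟩ := (Submodule.mem_span_range_iff_exists_fun K).mp hf
  have hlin : lin E.x b = f := hb
  have hb0 : b ≠ 0 := by
    rintro rfl
    apply hf0
    rw [← hlin]
    simp [lin]
  have hZ : E.Z b A = 0 := by
    rw [E.Z_apply hb0, hlin, hord]
    ring
  intro hpt
  have h1 := (E.pt_spec A b hb0).mp (by rw [hpt]; simp [dot])
  have h2 : E.Z b A = hypDiv E.vinf E.m E.x b A := rfl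
  rw [← h2, hZ] at h1
  exact lt_irrefl _ h1

omit [Algebra K F] in
/-- If a linear form vanishes at `y ≠ 0` but not at `z`, then `y ∧ z ≠ 0`. -/
theorem wedge_ne_zero_of_dot {n : ℕ} {y z a : Fin n → K} (hy : y ≠ 0) (hay : dot a y = 0)
    (haz : dot a z ≠ 0) : wedge y z ≠ 0 := by
  intro hw
  obtain ⟨j₀, hj₀⟩ := Function.ne_iff.mp hy
  have hz : ∀ i, z i = (z j₀ / y j₀) * y i := by
    intro i
    have h := congrFun hw (j₀, i)
    simp only [wedge, Pi.zero_apply] at h
    have hj : y j₀ ≠ 0 := hj₀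
    rw [div_mul_eq_mul_div, eq_div_iff hj]
    linear_combination h
  apply haz
  have : dot a z = (z j₀ / y j₀) * dot a y := by
    simp only [dot, dotProduct, Finset.mul_sum]
    refine Finset.sum_congr rfl fun i _ => ?_
    rw [hz i]
    ring
  rw [this, hay, mul_zero]

end Geometry


section Tools

variable {A : Type*} [Field A] [CharZero A]

/-- Absolute heights are invariant under reindexing along a surjection (repetition of
entries). -/
theorem absLogHeight_comp_surjective {ι ι' : Type*} [Finite ι] [Finite ι'] (f : ι → ι')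
    (hf : Function.Surjective f) (y : ι' → A) (hy : ∀ j, IsIntegral ℚ (y j)) :
    absLogHeight (y ∘ f) = absLogHeight y := by
  refine le_antisymm (absLogHeight_comp_le f y hy) ?_
  obtain ⟨g, hg⟩ := hf.hasRightInverse
  have h := absLogHeight_comp_le g (y ∘ f) (fun i => hy (f i))
  have heq : (y ∘ f) ∘ g = y := by
    funext j
    simp [Function.comp, hg j]
  rw [heq] at h
  exact h

/-- The absolute height of a `1`-tuple vanishes. -/
theorem absLogHeight_const {ι : Type*} [Finite ι] (z : A) (hz : IsIntegral ℚ z) :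
    absLogHeight (fun _ : ι => z) = 0 := by
  rcases isEmpty_or_nonempty ι with h | h
  · exact absLogHeight_empty _
  have h1 : absLogHeight (fun _ : Unit => z) = 0 := by
    haveI := tupleField_numberField (fun _ : Unit => z) (fun _ => hz)
    rw [absLogHeight_def _ (fun _ => hz)]
    rw [Height.logHeight_eq_zero_of_subsingleton, mul_zero]
  have h2 := absLogHeight_comp_surjective (fun _ : ι => ()) (fun u => ⟨Classical.arbitrary ι, rfl⟩)
    (fun _ : Unit => z) (fun _ => hz)
  rw [← h1, ← h2]
  rfl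

omit [CharZero A] in
theorem supn_pos (v : AbsoluteValue A ℝ) {ι : Type*} [Finite ι] {y : ι → A} (hy : y ≠ 0) :
    0 < supn v y := by
  obtain ⟨i₀, hi₀⟩ := Function.ne_iff.mp hy
  exact lt_of_lt_of_le (v.pos hi₀) (Finite.le_ciSup_of_le i₀ le_rfl)

omit [CharZero A] in
theorem supn_comp_surjective (v : AbsoluteValue A ℝ) {ι ι' : Type*} (f : ι → ι')
    (hf : Function.Surjective f) (y : ι' → A) : supn v (y ∘ f) = supn v y := by
  unfold supn
  exact hf.iSup_comp (fun j => v (y j))

omit [CharZero A] in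
theorem supn_const (v : AbsoluteValue A ℝ) {ι : Type*} [Nonempty ι] (z : A) :
    supn v (fun _ : ι => z) = v z := by
  unfold supn
  exact ciSup_const

end Tools


section E3

variable {Ω : Type*} [Field Ω] [CharZero Ω] [IsAlgClosed Ω] [Algebra.IsAlgebraic ℚ Ω]
variable {F : Type*} [Field F] [Algebra Ω F] [FF1 Ω F]

theorem sum_identity_e3 {s : Type*} [Fintype s] (z Wd Pt : s → ℝ) (p d aa : ℝ) :
    ((∑ A, (-z A) * Wd A) + (∑ A, z A * Pt A)) + (((∑ A, z A) - 1) * p + (1 * d + (-1) * aa))
      = (∑ A, z A * (Pt A + p - Wd A)) + (d - aa - p) := by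
  simp only [mul_add, mul_sub, Finset.sum_add_distrib, Finset.sum_sub_distrib, ← Finset.sum_mul,
    neg_mul, Finset.sum_neg_distrib]
  ring

/-- **Local to global: (L1) ⟹ (E3)** for `E₁ = E₂ = E`, over `Ω = ℚ̄` with a system of
absolute values `S` (e.g. `H830.absSystemQbar`). -/
theorem e3_of_l1 (S : AbsSystem Ω) (E : EmbData Ω F) (h : L1Statement E) : E3Statement E E := by
  classical
  obtain ⟨T, N, hT, hL1⟩ := h
  refine ⟨max N 0 + ∑ t ∈ T, (absLogHeight (![t, 1] : Fin 2 → Ω) +
    absLogHeight (![t⁻¹, 1] : Fin 2 → Ω)), fun a P ha hP => ?_⟩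
  have hint : ∀ z : Ω, IsIntegral ℚ z := fun z => Algebra.IsIntegral.isIntegral z
  set Z := E.Z a with hZ
  have hZnn : 0 ≤ Z := E.Z_nonneg a
  have hptP : E.pt P ≠ 0 := by
    intro h0
    apply hP
    rw [h0]
    simp [dot]
  have hzero : ∀ A ∈ Z.support, dot a (E.pt A) = 0 := by
    intro A hA
    rw [Finsupp.mem_support_iff] at hA
    have h1 : (0 : ℤ) ≤ Z A := hZnn A
    exact (E.pt_spec A a ha).mpr (lt_of_le_of_ne h1 (Ne.symm hA))
  have hwedge : ∀ A ∈ Z.support, wedge (E.pt A) (E.pt P) ≠ 0 := fun A hA =>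
    wedge_ne_zero_of_dot (pt_ne_zero E A) (hzero A hA) hP
  -- the family of tuples, all indexed by `J`
  let J := Fin (E.r + 1) × Fin (E.r + 1)
  have hfst : Function.Surjective (Prod.fst : J → Fin (E.r + 1)) := Prod.fst_surjective
  let y : ((Z.support ⊕ Z.support) ⊕ (Unit ⊕ (Unit ⊕ Unit))) → J → Ω :=
    Sum.elim (Sum.elim (fun A => wedge (E.pt A.1) (E.pt P)) (fun A => E.pt A.1 ∘ Prod.fst))
      (Sum.elim (fun _ => E.pt P ∘ Prod.fst)
        (Sum.elim (fun _ _ => dot a (E.pt P)) (fun _ => a ∘ Prod.fst)))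
  let c : ((Z.support ⊕ Z.support) ⊕ (Unit ⊕ (Unit ⊕ Unit))) → ℝ :=
    Sum.elim (Sum.elim (fun A => -(Z A.1 : ℝ)) (fun A => (Z A.1 : ℝ)))
      (Sum.elim (fun _ => (∑ A : Z.support, (Z A.1 : ℝ)) - 1)
        (Sum.elim (fun _ => 1) (fun _ => -1)))
  have hcomp_ne : ∀ {w : Fin (E.r + 1) → Ω}, w ≠ 0 → w ∘ (Prod.fst : J → Fin (E.r + 1)) ≠ 0 := by
    intro w hw h0
    obtain ⟨i, hi⟩ := Function.ne_iff.mp hw
    exact hi (congrFun h0 (i, i))
  have hy : ∀ k, y k ≠ 0 := by
    rintro ((A | A) | (_ | (_ | _)))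
    · exact hwedge A.1 A.2
    · exact hcomp_ne (pt_ne_zero E A.1)
    · exact hcomp_ne hptP
    · intro h0
      exact hP (congrFun h0 (0, 0))
    · exact hcomp_ne ha
  -- local bound
  have hloc : ∀ v : AbsoluteValue Ω ℝ, IsGoodAbsV v →
      |∑ k, c k * Real.log (⨆ i, v (y k i))| ≤ bndV v T N := by
    intro v hv
    have hL := hL1 v hv a P ha hP
    have hexpr : ∑ k, c k * Real.log (⨆ i, v (y k i)) =
        (E.Z a).sum (fun A n => (n : ℝ) * lam v (E.pt A) (E.pt P)) +
          Real.log (v (dot a (E.pt P)) / (supn v a * supn v (E.pt P))) := by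
      have e1 : ∀ w : Fin (E.r + 1) → Ω,
          (⨆ i : J, v ((w ∘ Prod.fst) i)) = supn v w := fun w =>
        supn_comp_surjective v Prod.fst hfst w
      have e2 : (⨆ _i : J, v (dot a (E.pt P))) = v (dot a (E.pt P)) := ciSup_const
      simp only [Fintype.sum_sum_type, y, c, Sum.elim_inl, Sum.elim_inr, Finset.univ_unique,
        Finset.sum_singleton, e1, e2]
      rw [sum_identity_e3 (fun A : Z.support => (Z A.1 : ℝ))
        (fun A => Real.log (⨆ i, v (wedge (E.pt A.1) (E.pt P) i)))
        (fun A => Real.log (supn v (E.pt A.1)))]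
      congr 1
      · rw [Finsupp.sum, ← Finset.sum_coe_sort Z.support]
        refine Finset.sum_congr rfl fun A _ => ?_
        congr 1
        unfold lam
        have h1 := supn_pos v (hwedge A.1 A.2)
        have h2 := supn_pos v (pt_ne_zero E A.1)
        have h3 := supn_pos v hptP
        rw [Real.log_div h1.ne' (mul_pos h2 h3).ne', Real.log_mul h2.ne' h3.ne']
        unfold supn
        ring
      · have h1 : v (dot a (E.pt P)) ≠ 0 := (v.pos hP).ne'
        have h2 := supn_pos v ha
        have h3 := supn_pos v hptP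
        rw [Real.log_div h1 (mul_pos h2 h3).ne', Real.log_mul h2.ne' h3.ne']
        ring
    rw [hexpr]
    exact hL
  have key := abs_sum_absLogHeight_le S (ι := fun _ => J) y hy c T hT N hloc
  -- global expression
  have hglob : ∑ k, c k * absLogHeight (y k) =
      pairPt E (E.Z a) P - ht a - ht (E.pt P) := by
    have e1 : ∀ w : Fin (E.r + 1) → Ω,
        absLogHeight (w ∘ (Prod.fst : J → Fin (E.r + 1))) = absLogHeight w := fun w =>
      absLogHeight_comp_surjective Prod.fst hfst w (fun i => hint _)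
    have e2 : absLogHeight (fun _ : J => dot a (E.pt P)) = 0 :=
      absLogHeight_const _ (hint _)
    simp only [Fintype.sum_sum_type, y, c, Sum.elim_inl, Sum.elim_inr, Finset.univ_unique,
      Finset.sum_singleton, e1, e2]
    rw [sum_identity_e3 (fun A : Z.support => (Z A.1 : ℝ))
      (fun A => absLogHeight (wedge (E.pt A.1) (E.pt P)))
      (fun A => absLogHeight (E.pt A.1))]
    unfold pairPt hD ht
    rw [Finsupp.sum, ← Finset.sum_coe_sort Z.support]
    ring
  rw [← hglob]
  exact key

end E3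

end Fermat.Agent.S17.H380
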