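import Fermat.Agent.S17.H380.AbsSegre
import Mathlib.RingTheory.Polynomial.Vieta
import Mathlib.RingTheory.AdjoinRoot
import Mathlib.FieldTheory.IsAlgClosed.AlgebraicClosure

set_option linter.unusedSectionVars false
set_option linter.style.haveILetI false

namespace Fermat.Agent.S17.H380

open NumberField Height Module IntermediateField Polynomial

section One

variable {A : Type*} [Field A] [CharZero A]

/-- The absolute logarithmic height of an algebraic number (affine height). -/
noncomputable def absH1 (a : A) : ℝ := absLogHeight ![a, 1]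

theorem absH1_nonneg (a : A) : 0 ≤ absH1 a := absLogHeight_nonneg _

theorem absH1_eq {F : Type*} [Field F] [NumberField F] (σ : F →+* A) (a : F) :
    absH1 (σ a) = (finrank ℚ F : ℝ)⁻¹ * logHeight₁ a := by
  unfold absH1
  have : (![σ a, 1] : Fin 2 → A) = fun i => σ (![a, 1] i) := by
    funext i; fin_cases i <;> simp
  rw [this, absLogHeight_eq, logHeight₁_eq_logHeight]

theorem absH1_ringHom {B : Type*} [Field B] [CharZero B] (ρ : A →+* B) (a : A) :
    absH1 (ρ a) = absH1 a := by
  unfold absH1
  have : (![ρ a, 1] : Fin 2 → B) = fun i => ρ (![a, 1] i) := by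
    funext i; fin_cases i <;> simp
  rw [this, absLogHeight_ringHom]

theorem absH1_algebraMap_rat (q : ℚ) : absH1 (algebraMap ℚ A q) = logHeight₁ q := by
  rw [absH1_eq (algebraMap ℚ A) q]
  simp

theorem absH1_zero : absH1 (0 : A) = 0 := by
  have := absH1_algebraMap_rat (A := A) 0
  simpa using this

theorem absH1_one : absH1 (1 : A) = 0 := by
  have := absH1_algebraMap_rat (A := A) 1
  simpa using this

/-- number field generated by two elements -/
theorem exists_lift_pair (x y : A) (hx : IsIntegral ℚ x) (hy : IsIntegral ℚ y) :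
    ∃ (F : IntermediateField ℚ A) (_ : NumberField F) (a b : F), (a : A) = x ∧ (b : A) = y := by
  have hu : ∀ i, IsIntegral ℚ ((![x, y] : Fin 2 → A) i) := by
    intro i; fin_cases i <;> simp [hx, hy]
  refine ⟨tupleField ![x, y], tupleField_numberField _ hu,
    ⟨x, subset_adjoin ℚ _ ⟨0, rfl⟩⟩, ⟨y, subset_adjoin ℚ _ ⟨1, rfl⟩⟩, rfl, rfl⟩

theorem absH1_mul_le (x y : A) (hx : IsIntegral ℚ x) (hy : IsIntegral ℚ y) :
    absH1 (x * y) ≤ absH1 x + absH1 y := by
  obtain ⟨F, hF, a, b, rfl, rfl⟩ := exists_lift_pair x y hx hy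
  have h1 := absH1_eq (algebraMap F A) a
  have h2 := absH1_eq (algebraMap F A) b
  have h3 := absH1_eq (algebraMap F A) (a * b)
  simp only [IntermediateField.algebraMap_apply] at h1 h2 h3
  rw [show ((a : A) * (b : A)) = ((a * b : F) : A) by push_cast; rfl, h1, h2, h3, ← mul_add]
  exact mul_le_mul_of_nonneg_left (logHeight₁_mul_le a b) (by positivity)

theorem absH1_add_le (x y : A) (hx : IsIntegral ℚ x) (hy : IsIntegral ℚ y) :
    absH1 (x + y) ≤ Real.log 2 + absH1 x + absH1 y := by
  obtain ⟨F, hF, a, b, rfl, rfl⟩ := exists_lift_pair x y hx hy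
  have h1 := absH1_eq (algebraMap F A) a
  have h2 := absH1_eq (algebraMap F A) b
  have h3 := absH1_eq (algebraMap F A) (a + b)
  simp only [IntermediateField.algebraMap_apply] at h1 h2 h3
  rw [show ((a : A) + (b : A)) = ((a + b : F) : A) by push_cast; rfl, h1, h2, h3]
  have h := logHeight₁_add_le a b
  rw [NumberField.totalWeight_eq_finrank] at h
  have hD : (0 : ℝ) < finrank ℚ F := by exact_mod_cast Module.finrank_pos
  have key : Real.log 2 + (finrank ℚ F : ℝ)⁻¹ * logHeight₁ a + (finrank ℚ F : ℝ)⁻¹ * logHeight₁ b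
      = (finrank ℚ F : ℝ)⁻¹ * ((finrank ℚ F : ℝ) * Real.log 2 + logHeight₁ a + logHeight₁ b) := by
    field_simp
  rw [key]
  exact mul_le_mul_of_nonneg_left h (by positivity)

theorem absH1_neg (x : A) (hx : IsIntegral ℚ x) : absH1 (-x) = absH1 x := by
  obtain ⟨F, hF, a, b, rfl, -⟩ := exists_lift_pair x x hx hx
  have h1 := absH1_eq (algebraMap F A) a
  have h3 := absH1_eq (algebraMap F A) (-a)
  simp only [IntermediateField.algebraMap_apply] at h1 h3
  rw [show (-(a : A)) = ((-a : F) : A) by push_cast; rfl, h1, h3, logHeight₁_neg]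

theorem absH1_multiset_prod_le (s : Multiset A) (hs : ∀ a ∈ s, IsIntegral ℚ a) :
    absH1 s.prod ≤ (s.map absH1).sum := by
  induction s using Multiset.induction_on with
  | empty => simp [absH1_one]
  | cons a s ih =>
    have hsa : ∀ b ∈ s, IsIntegral ℚ b := fun b hb => hs b (Multiset.mem_cons_of_mem hb)
    have ha : IsIntegral ℚ a := hs a (Multiset.mem_cons_self a s)
    have hprod : IsIntegral ℚ s.prod := IsIntegral.multiset_prod hsa
    rw [Multiset.prod_cons, Multiset.map_cons, Multiset.sum_cons]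
    exact (absH1_mul_le a s.prod ha hprod).trans (by linarith [ih hsa])

theorem absH1_multiset_sum_le (s : Multiset A) (hs : ∀ a ∈ s, IsIntegral ℚ a) :
    absH1 s.sum ≤ Multiset.card s * Real.log 2 + (s.map absH1).sum := by
  induction s using Multiset.induction_on with
  | empty => simp [absH1_zero]
  | cons a s ih =>
    have hsa : ∀ b ∈ s, IsIntegral ℚ b := fun b hb => hs b (Multiset.mem_cons_of_mem hb)
    have ha : IsIntegral ℚ a := hs a (Multiset.mem_cons_self a s)
    have hsum : IsIntegral ℚ s.sum := IsIntegral.multiset_sum hsa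
    rw [Multiset.sum_cons, Multiset.map_cons, Multiset.sum_cons, Multiset.card_cons]
    have := absH1_add_le a s.sum ha hsum
    have := ih hsa
    push_cast
    linarith


/-- Conjugate algebraic numbers have the same absolute height. -/
theorem absH1_eq_of_root (α β : A) (hα : IsIntegral ℚ α) (hβ : β ∈ (minpoly ℚ α).aroots A) :
    absH1 β = absH1 α := by
  haveI : FiniteDimensional ℚ ℚ⟮α⟯ := adjoin.finiteDimensional hα
  haveI : NumberField ℚ⟮α⟯ := {}
  let σ : ℚ⟮α⟯ →ₐ[ℚ] A := (algHomAdjoinIntegralEquiv ℚ hα).symm ⟨β, hβ⟩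
  have hσ : σ (AdjoinSimple.gen ℚ α) = β := algHomAdjoinIntegralEquiv_symm_apply_gen ℚ hα ⟨β, hβ⟩
  have h1 := absH1_eq (σ : ℚ⟮α⟯ →+* A) (AdjoinSimple.gen ℚ α)
  have h2 := absH1_eq (algebraMap ℚ⟮α⟯ A) (AdjoinSimple.gen ℚ α)
  have hgen : algebraMap ℚ⟮α⟯ A (AdjoinSimple.gen ℚ α) = α := rfl
  rw [hgen] at h2
  have hσ' : (σ : ℚ⟮α⟯ →+* A) (AdjoinSimple.gen ℚ α) = β := hσ
  rw [hσ'] at h1
  rw [h1, h2]

theorem absH1_neg_one_pow_mul (m : ℕ) (x : A) (hx : IsIntegral ℚ x) :
    absH1 ((-1) ^ m * x) = absH1 x := by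
  rcases neg_one_pow_eq_or A m with h | h
  · rw [h, one_mul]
  · rw [h, neg_one_mul, absH1_neg x hx]

/-- Bound for the heights of the coefficients of the minimal polynomial of an algebraic
number, when the minimal polynomial splits. -/
theorem logHeight₁_coeff_minpoly_le_of_splits (α : A) (hα : IsIntegral ℚ α)
    (hsplit : ((minpoly ℚ α).map (algebraMap ℚ A)).Splits) (k : ℕ) :
    logHeight₁ ((minpoly ℚ α).coeff k)
      ≤ 2 ^ (minpoly ℚ α).natDegree *
          (Real.log 2 + (minpoly ℚ α).natDegree * absH1 α) := by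
  set f := minpoly ℚ α with hf
  set n := f.natDegree with hn
  have hH := absH1_nonneg α
  have hlog2 : 0 ≤ Real.log 2 := Real.log_nonneg (by norm_num)
  have hbound_nonneg : 0 ≤ (2:ℝ) ^ n * (Real.log 2 + n * absH1 α) := by positivity
  rcases lt_or_ge n k with hk | hk
  · rw [coeff_eq_zero_of_natDegree_lt hk, logHeight₁_zero]
    exact hbound_nonneg
  set fA := f.map (algebraMap ℚ A) with hfA
  have hmonic : fA.Monic := (minpoly.monic hα).map _
  have hdeg : fA.natDegree = n := natDegree_map _
  have hcoeff := Polynomial.coeff_eq_esymm_roots_of_splits hsplit (hdeg ▸ hk : k ≤ fA.natDegree)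
  rw [hmonic.leadingCoeff, one_mul, hdeg, coeff_map] at hcoeff
  set R := fA.roots with hR
  have hRcard : Multiset.card R = n := by
    rw [← hdeg]; exact (splits_iff_card_roots.1 hsplit)
  have hRint : ∀ β ∈ R, IsIntegral ℚ β := by
    intro β hβ
    have hβ' : β ∈ f.aroots A := hβ
    rw [mem_aroots] at hβ'
    exact ⟨f, minpoly.monic hα, by simpa [aeval_def] using hβ'.2⟩
  have hRh : ∀ β ∈ R, absH1 β = absH1 α := fun β hβ => absH1_eq_of_root α β hα hβ
  set m := n - k with hm
  have hTbound : ∀ T ∈ R.powersetCard m, absH1 T.prod ≤ m * absH1 α := by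
    intro T hT
    rw [Multiset.mem_powersetCard] at hT
    have hTint : ∀ β ∈ T, IsIntegral ℚ β := fun β hβ => hRint β (Multiset.mem_of_le hT.1 hβ)
    refine (absH1_multiset_prod_le T hTint).trans ?_
    have : T.map absH1 = T.map (fun _ => absH1 α) :=
      Multiset.map_congr rfl (fun β hβ => hRh β (Multiset.mem_of_le hT.1 hβ))
    rw [this, Multiset.map_const', Multiset.sum_replicate, hT.2, nsmul_eq_mul]
  have hTint' : ∀ z ∈ (R.powersetCard m).map Multiset.prod, IsIntegral ℚ z := by
    intro z hz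
    obtain ⟨T, hT, rfl⟩ := Multiset.mem_map.mp hz
    rw [Multiset.mem_powersetCard] at hT
    exact IsIntegral.multiset_prod (fun β hβ => hRint β (Multiset.mem_of_le hT.1 hβ))
  have hes : absH1 (R.esymm m) ≤ (n.choose m : ℝ) * Real.log 2 + (n.choose m : ℝ) * (m * absH1 α) := by
    unfold Multiset.esymm
    refine (absH1_multiset_sum_le _ hTint').trans ?_
    rw [Multiset.card_map, Multiset.card_powersetCard, hRcard, Multiset.map_map]
    refine add_le_add le_rfl ?_
    have h1 : ((R.powersetCard m).map (absH1 ∘ Multiset.prod)).sum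
        ≤ ((R.powersetCard m).map (fun _ => (m : ℝ) * absH1 α)).sum :=
      Multiset.sum_map_le_sum_map _ _ (fun T hT => hTbound T hT)
    refine h1.trans ?_
    rw [Multiset.map_const', Multiset.sum_replicate, Multiset.card_powersetCard, hRcard,
      nsmul_eq_mul]
  have hesint : IsIntegral ℚ (R.esymm m) := by
    unfold Multiset.esymm
    exact IsIntegral.multiset_sum hTint'
  have hval : logHeight₁ (f.coeff k) = absH1 (R.esymm m) := by
    rw [← absH1_algebraMap_rat (A := A), hcoeff, absH1_neg_one_pow_mul _ _ hesint]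
  rw [hval]
  refine hes.trans ?_
  have hch : (n.choose m : ℝ) ≤ 2 ^ n := by exact_mod_cast Nat.choose_le_two_pow n m
  have hmn : (m : ℝ) ≤ n := by exact_mod_cast Nat.sub_le n k
  calc (n.choose m : ℝ) * Real.log 2 + (n.choose m : ℝ) * (m * absH1 α)
      = (n.choose m : ℝ) * (Real.log 2 + m * absH1 α) := by ring
    _ ≤ 2 ^ n * (Real.log 2 + n * absH1 α) := by
        apply mul_le_mul hch _ (by positivity) (by positivity)
        have := mul_le_mul_of_nonneg_right hmn hH
        linarith

end One


section Northcott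

variable (A : Type*) [Field A] [CharZero A]

/-- Finitely many rational polynomials of bounded degree with coefficients of bounded height. -/
theorem finite_polys_bounded (d : ℕ) (B' : ℝ) :
    {f : ℚ[X] | f.natDegree ≤ d ∧ ∀ k, logHeight₁ (f.coeff k) ≤ B'}.Finite := by
  have hfin : (Set.univ.pi (fun _ : Fin (d + 1) => {q : ℚ | logHeight₁ q ≤ B'})).Finite :=
    Set.Finite.pi (fun _ => NumberField.finite_setOfPred_logHeight₁_le ℚ B')
  refine Set.Finite.of_finite_image (f := fun f : ℚ[X] => fun k : Fin (d + 1) => f.coeff k)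
    (hfin.subset ?_) ?_
  · rintro _ ⟨f, hf, rfl⟩
    intro k _
    exact hf.2 k
  · intro f hf g hg hfg
    ext k
    rcases lt_or_ge d k with hk | hk
    · rw [coeff_eq_zero_of_natDegree_lt (lt_of_le_of_lt hf.1 hk),
        coeff_eq_zero_of_natDegree_lt (lt_of_le_of_lt hg.1 hk)]
    · exact congrFun hfg ⟨k, Nat.lt_succ_of_le hk⟩

/-- Bound for the heights of the coefficients of the minimal polynomial of an algebraic
number (no splitting assumption). -/
theorem logHeight₁_coeff_minpoly_le {A : Type*} [Field A] [CharZero A] (α : A)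
    (hα : IsIntegral ℚ α) (k : ℕ) :
    logHeight₁ ((minpoly ℚ α).coeff k)
      ≤ 2 ^ (minpoly ℚ α).natDegree *
          (Real.log 2 + (minpoly ℚ α).natDegree * absH1 α) := by
  let Ω := AlgebraicClosure A
  have hmin : minpoly ℚ (algebraMap A Ω α) = minpoly ℚ α :=
    minpoly.algebraMap_eq (algebraMap A Ω).injective α
  have hα' : IsIntegral ℚ (algebraMap A Ω α) := hα.map (IsScalarTower.toAlgHom ℚ A Ω)
  have h := logHeight₁_coeff_minpoly_le_of_splits (algebraMap A Ω α) hα'
    (IsAlgClosed.splits _) k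
  rw [hmin, absH1_ringHom] at h
  exact h

/-- **Northcott's theorem for algebraic numbers of bounded degree**: in any field of
characteristic zero there are only finitely many algebraic numbers of degree at most `d`
and absolute logarithmic height at most `B`. -/
theorem finite_absH1_le (d : ℕ) (B : ℝ) :
    {α : A | IsIntegral ℚ α ∧ (minpoly ℚ α).natDegree ≤ d ∧ absH1 α ≤ B}.Finite := by
  set B' : ℝ := 2 ^ d * (Real.log 2 + d * B) with hB'
  have hP := finite_polys_bounded d B'
  have hfin : (⋃ f ∈ {f : ℚ[X] | f.natDegree ≤ d ∧ ∀ k, logHeight₁ (f.coeff k) ≤ B'},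
      (f.rootSet A)).Finite :=
    Set.Finite.biUnion hP (fun f _ => Polynomial.rootSet_finite f A)
  refine hfin.subset ?_
  rintro α ⟨hα, hdeg, hH⟩
  rw [Set.mem_iUnion₂]
  refine ⟨minpoly ℚ α, ⟨hdeg, fun k => ?_⟩, ?_⟩
  · refine (logHeight₁_coeff_minpoly_le α hα k).trans ?_
    have hH0 := absH1_nonneg α
    have hlog2 : 0 ≤ Real.log 2 := Real.log_nonneg (by norm_num)
    have hnd : ((minpoly ℚ α).natDegree : ℝ) ≤ d := by exact_mod_cast hdeg
    have h2 : (2:ℝ) ^ (minpoly ℚ α).natDegree ≤ 2 ^ d :=
      pow_le_pow_right₀ (by norm_num) hdeg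
    apply mul_le_mul h2 _ (by positivity) (by positivity)
    have : ((minpoly ℚ α).natDegree : ℝ) * absH1 α ≤ d * B :=
      mul_le_mul hnd hH hH0 (by positivity)
    linarith
  · rw [Polynomial.mem_rootSet]
    exact ⟨minpoly.ne_zero hα, minpoly.aeval ℚ α⟩


/-- **Northcott's theorem for tuples of algebraic numbers of bounded degree**: only finitely
many tuples with a coordinate equal to `1` (affine normalisation of a projective point), all
coordinates of degree at most `d`, and absolute logarithmic height at most `B`. -/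
theorem finite_absLogHeight_le {ι : Type*} [Finite ι] (d : ℕ) (B : ℝ) :
    {x : ι → A | (∀ i, IsIntegral ℚ (x i)) ∧ (∀ i, (minpoly ℚ (x i)).natDegree ≤ d) ∧
      (∃ i, x i = 1) ∧ absLogHeight x ≤ B}.Finite := by
  have hfin : (Set.univ.pi (fun _ : ι =>
      {α : A | IsIntegral ℚ α ∧ (minpoly ℚ α).natDegree ≤ d ∧ absH1 α ≤ B})).Finite :=
    Set.Finite.pi (fun _ => finite_absH1_le A d B)
  refine hfin.subset ?_
  rintro x ⟨hx, hdeg, ⟨i₀, hi₀⟩, hH⟩
  intro i _
  refine ⟨hx i, hdeg i, ?_⟩
  have h := absLogHeight_comp_le (![i, i₀] : Fin 2 → ι) x hx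
  have heq : x ∘ (![i, i₀] : Fin 2 → ι) = ![x i, 1] := by
    funext j; fin_cases j <;> simp [hi₀]
  rw [heq] at h
  exact h.trans hH

/-- The degree of each coordinate is bounded by the degree of the field generated by the
tuple. -/
theorem natDegree_minpoly_le_finrank_tupleField {A : Type*} [Field A] [CharZero A]
    {ι : Type*} [Finite ι] (x : ι → A) (hx : ∀ i, IsIntegral ℚ (x i)) (i : ι) :
    (minpoly ℚ (x i)).natDegree ≤ finrank ℚ (tupleField x) := by
  haveI := tupleField_finiteDimensional x hx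
  have h := minpoly.natDegree_le (A := ℚ) (tupleLift x i)
  have hmin : minpoly ℚ (tupleLift x i) = minpoly ℚ (x i) :=
    (minpoly.algebraMap_eq (algebraMap (tupleField x) A).injective (tupleLift x i)).symm
  rw [hmin] at h
  exact h

/-- **Northcott's theorem** for tuples generating a number field of bounded degree. -/
theorem finite_absLogHeight_le_of_finrank {ι : Type*} [Finite ι] (d : ℕ) (B : ℝ) :
    {x : ι → A | (∀ i, IsIntegral ℚ (x i)) ∧ finrank ℚ (tupleField x) ≤ d ∧
      (∃ i, x i = 1) ∧ absLogHeight x ≤ B}.Finite := by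
  refine (finite_absLogHeight_le A (ι := ι) d B).subset ?_
  rintro x ⟨hx, hdeg, h1, hH⟩
  exact ⟨hx, fun i => (natDegree_minpoly_le_finrank_tupleField x hx i).trans hdeg, h1, hH⟩

end Northcott

end Fermat.Agent.S17.H380
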