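import Mathlib.NumberTheory.Height.NumberField
import Mathlib.RingTheory.Ideal.Norm.RelNorm
import Mathlib.NumberTheory.NumberField.InfinitePlace.Ramification
import Mathlib.FieldTheory.PrimitiveElement

namespace Fermat.Agent.S17.H380

open NumberField Height Module

section Embeddings

variable {K L : Type*} [Field K] [NumberField K] [Field L] [NumberField L] [Algebra K L]

/-- The complex embeddings of `L` extending a given embedding `ψ` of `K` correspond to
`K`-algebra homomorphisms `L → ℂ`, where `ℂ` is a `K`-algebra via `ψ`. -/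
noncomputable def embExtEquiv (ψ : K →+* ℂ) :
    letI := ψ.toAlgebra
    (L →ₐ[K] ℂ) ≃ {φ : L →+* ℂ // φ.comp (algebraMap K L) = ψ} :=
  letI := ψ.toAlgebra
  { toFun := fun f => ⟨f.toRingHom, by ext x; exact f.commutes x⟩
    invFun := fun φ =>
      { (φ.1 : L →+* ℂ) with
        commutes' := fun x => congrArg (fun g : K →+* ℂ => g x) φ.2 }
    left_inv := fun f => by ext; rfl
    right_inv := fun φ => by ext; rfl }

theorem natCard_embExt (ψ : K →+* ℂ) :
    Nat.card {φ : L →+* ℂ // φ.comp (algebraMap K L) = ψ} = finrank K L := by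
  let _ := ψ.toAlgebra
  rw [← Nat.card_congr (embExtEquiv (L := L) ψ)]
  exact AlgHom.natCard_of_splits K L ℂ (fun _ => IsAlgClosed.splits _)

open Classical in
theorem card_filter_embExt (ψ : K →+* ℂ) :
    (Finset.univ.filter (fun φ : L →+* ℂ => φ.comp (algebraMap K L) = ψ)).card = finrank K L := by
  rw [← natCard_embExt (L := L) ψ, Nat.card_eq_fintype_card, Fintype.card_subtype]

/-- Products over complex embeddings of `L` of a function of the restricted embedding. -/
theorem prod_embeddings_comp {M : Type*} [CommMonoid M] (f : (K →+* ℂ) → M) :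
    ∏ φ : L →+* ℂ, f (φ.comp (algebraMap K L)) = (∏ ψ : K →+* ℂ, f ψ) ^ finrank K L := by
  classical
  rw [← Finset.prod_fiberwise (s := Finset.univ) (g := fun φ : L →+* ℂ => φ.comp (algebraMap K L))]
  rw [← Finset.prod_pow]
  refine Finset.prod_congr rfl fun ψ _ => ?_
  rw [Finset.prod_congr rfl (fun φ hφ => by rw [(Finset.mem_filter.mp hφ).2] :
      ∀ φ ∈ Finset.univ.filter (fun φ : L →+* ℂ => φ.comp (algebraMap K L) = ψ),
        f (φ.comp (algebraMap K L)) = f ψ)]
  rw [Finset.prod_const, card_filter_embExt]

/-- Products over infinite places with multiplicity are products over complex embeddings. -/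
theorem prod_infinitePlace_pow_mult {M : Type*} [CommMonoid M] (g : InfinitePlace K → M) :
    ∏ v : InfinitePlace K, g v ^ v.mult = ∏ ψ : K →+* ℂ, g (InfinitePlace.mk ψ) := by
  classical
  rw [← Finset.prod_fiberwise (s := Finset.univ) (g := fun ψ : K →+* ℂ => InfinitePlace.mk ψ)]
  refine Finset.prod_congr rfl fun v _ => ?_
  rw [Finset.prod_congr rfl (fun φ hφ => by rw [(Finset.mem_filter.mp hφ).2] :
      ∀ φ ∈ Finset.univ.filter (fun φ : K →+* ℂ => InfinitePlace.mk φ = v),
        g (InfinitePlace.mk φ) = g v)]
  rw [Finset.prod_const, InfinitePlace.card_filter_mk_eq]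

/-- **Infinite part of the degree formula**: for an extension `L/K` of number fields,
the weighted product over the infinite places of `L` of a function of the place below
is the `[L:K]`-th power of the weighted product over the infinite places of `K`. -/
theorem prod_infinitePlace_comap {M : Type*} [CommMonoid M] (g : InfinitePlace K → M) :
    ∏ w : InfinitePlace L, g (w.comap (algebraMap K L)) ^ w.mult
      = (∏ v : InfinitePlace K, g v ^ v.mult) ^ finrank K L := by
  rw [prod_infinitePlace_pow_mult (fun w : InfinitePlace L => g (w.comap (algebraMap K L))),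
    prod_infinitePlace_pow_mult g]
  simp only [InfinitePlace.comap_mk]
  exact prod_embeddings_comp (L := L) (fun ψ => g (InfinitePlace.mk ψ))

end Embeddings


section Relative

variable {K L : Type*} [Field K] [NumberField K] [Field L] [NumberField L] [Algebra K L]
variable {ι : Type*} [Finite ι]

/-- The multiplicative height of a nonzero tuple of algebraic integers: the archimedean
part divided by the absolute norm of the ideal generated by the entries. -/
theorem mulHeight_integral_eq {y : ι → 𝓞 K} (hy : y ≠ 0) :
    mulHeight (fun i => (y i : K)) * (Ideal.span (Set.range y)).absNorm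
      = ∏ v : InfinitePlace K, (⨆ i, v (y i)) ^ v.mult := by
  have hy' : (fun i => (y i : K)) ≠ 0 := by
    intro h
    apply hy
    funext i
    have := congrFun h i
    exact RingOfIntegers.coe_eq_zero_iff.mp this
  rw [NumberField.mulHeight_eq hy', mul_assoc, mul_comm (∏ᶠ v : FinitePlace K, _),
    NumberField.absNorm_mul_finprod_finitePlace_eq_one hy, mul_one]

omit [Finite ι] in
theorem absNorm_span_range_ne_zero {y : ι → 𝓞 K} (hy : y ≠ 0) :
    ((Ideal.span (Set.range y)).absNorm : ℝ) ≠ 0 := by
  rw [Nat.cast_ne_zero, Ne, Ideal.absNorm_eq_zero_iff, Ideal.span_eq_bot]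
  intro h
  apply hy
  funext i
  exact h _ ⟨i, rfl⟩

/-- **Degree formula for heights**, integral case. -/
theorem mulHeight_algebraMap_integral (y : ι → 𝓞 K) :
    mulHeight (fun i => algebraMap K L (y i : K))
      = mulHeight (fun i => (y i : K)) ^ finrank K L := by
  rcases eq_or_ne y 0 with rfl | hy
  · have h0 : (fun i : ι => algebraMap K L (((0 : ι → 𝓞 K) i : 𝓞 K) : K)) = 0 := by
      funext i; simp
    have h1 : (fun i : ι => ((((0 : ι → 𝓞 K) i : 𝓞 K)) : K)) = 0 := by
      funext i; simp
    rw [h0, h1]; simp
  -- the tuple upstairs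
  set z : ι → 𝓞 L := fun i => algebraMap (𝓞 K) (𝓞 L) (y i) with hz
  have hzy : ∀ i, ((z i : 𝓞 L) : L) = algebraMap K L (y i : K) := fun i => rfl
  have hz0 : z ≠ 0 := by
    intro h
    apply hy
    funext i
    have h1 := congrFun h i
    have h2 : algebraMap K L (y i : K) = 0 := by
      rw [← hzy i, h1]; simp
    have h3 : (y i : K) = 0 := by
      simpa using h2
    exact RingOfIntegers.coe_eq_zero_iff.mp h3
  have hspan : Ideal.span (Set.range z)
      = (Ideal.span (Set.range y)).map (algebraMap (𝓞 K) (𝓞 L)) := by
    rw [Ideal.map_span, ← Set.range_comp]; rfl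
  have hnorm : ((Ideal.span (Set.range z)).absNorm : ℝ)
      = ((Ideal.span (Set.range y)).absNorm : ℝ) ^ finrank K L := by
    rw [hspan, Ideal.absNorm_algebraMap, IsFractionRing.finrank_eq (𝓞 K) K (𝓞 L) L]
    push_cast; rfl
  have hK := mulHeight_integral_eq hy
  have hL := mulHeight_integral_eq hz0
  have hinf : ∏ w : InfinitePlace L, (⨆ i, w (z i)) ^ w.mult
      = (∏ v : InfinitePlace K, (⨆ i, v (y i)) ^ v.mult) ^ finrank K L := by
    rw [← prod_infinitePlace_comap (L := L) (fun v : InfinitePlace K => ⨆ i, v (y i))]
    refine Finset.prod_congr rfl fun w _ => ?_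
    congr 1
  have hne := absNorm_span_range_ne_zero hz0
  have key : mulHeight (fun i => ((z i : 𝓞 L) : L)) * ((Ideal.span (Set.range z)).absNorm : ℝ)
      = mulHeight (fun i => (y i : K)) ^ finrank K L
          * ((Ideal.span (Set.range z)).absNorm : ℝ) := by
    rw [hL, hinf, ← hK, mul_pow, hnorm]
  exact mul_right_cancel₀ hne key

/-- **Degree formula for heights**: for an extension `L/K` of number fields the multiplicative
height of a tuple of elements of `K`, computed in `L`, is the `[L:K]`-th power of its height
computed in `K`. -/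
theorem mulHeight_algebraMap (x : ι → K) :
    mulHeight (fun i => algebraMap K L (x i)) = mulHeight x ^ finrank K L := by
  obtain ⟨b, hb⟩ := IsLocalization.exist_integer_multiples_of_finite (nonZeroDivisors (𝓞 K)) x
  choose y hy using hb
  have hb0 : ((b : 𝓞 K) : K) ≠ 0 := by
    have := nonZeroDivisors.coe_ne_zero b
    exact fun h => this (RingOfIntegers.coe_eq_zero_iff.mp h)
  have hyx : (fun i => (y i : K)) = ((b : 𝓞 K) : K) • x := by
    funext i
    have := hy i
    simp only [Pi.smul_apply, smul_eq_mul]
    rw [Algebra.smul_def] at this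
    exact this
  have hbL : algebraMap K L ((b : 𝓞 K) : K) ≠ 0 := by simp [hb0]
  have hyxL : (fun i => algebraMap K L (y i : K))
      = (algebraMap K L ((b : 𝓞 K) : K)) • (fun i => algebraMap K L (x i)) := by
    funext i
    have := congrFun hyx i
    simp only [Pi.smul_apply, smul_eq_mul] at this ⊢
    rw [this, map_mul]
  have := mulHeight_algebraMap_integral (L := L) y
  rw [hyx, hyxL, mulHeight_smul_eq_mulHeight _ hb0, mulHeight_smul_eq_mulHeight _ hbL] at this
  exact this

/-- Logarithmic version of the degree formula. -/
theorem logHeight_algebraMap (x : ι → K) :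
    logHeight (fun i => algebraMap K L (x i)) = finrank K L * logHeight x := by
  rw [logHeight_eq_log_mulHeight, mulHeight_algebraMap, Real.log_pow, logHeight_eq_log_mulHeight]

end Relative

end Fermat.Agent.S17.H380
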