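import Fermat.Agent.S17.H380.E3OfL1

set_option linter.unusedSectionVars false
set_option linter.style.haveILetI false
set_option autoImplicit false

noncomputable section

open AlgebraicCurve

namespace Fermat.Agent.S17.H380

open Fermat.Agent.Lib.RR Fermat.Agent.S17.HWall Fermat.Agent.S17.HContract
open Fermat.Agent.S17.H830

section Geometry

variable {K F : Type*} [Field K] [Field F] [Algebra K F] [FF1 K F]

/-- The embedding separates points: for `A ≠ P` the vectors `pt A`, `pt P` are not
proportional. -/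
theorem wedge_pt_ne_zero (E : EmbData K F) {A P : Place K F} (hAP : A ≠ P) :
    wedge (E.pt A) (E.pt P) ≠ 0 := by
  classical
  have hdegm : Divisor.degree (E.m • prim E.vinf : Divisor K F) = E.m := by
    rw [map_nsmul]
    unfold prim
    rw [Divisor.degree_single, FF1.deg_eq_one]
    simp
  have hdegA : Divisor.degree (prim A : Divisor K F) = 1 := degree_prim A (FF1.deg_eq_one A)
  set D : Divisor K F := E.m • prim E.vinf - prim A with hD
  have hE : 2 * (genusFF K F : ℤ) ≤ Divisor.degree D := by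
    rw [hD, map_sub, hdegm, hdegA, genusFF_eq_genusR]
    have := E.hm
    omega
  obtain ⟨f, hf, hf0, hord⟩ := H439.exists_mem_L_ord_eq hE P
  have hle : D ≤ E.m • prim E.vinf := by
    rw [hD, Finsupp.le_def]
    intro w
    simp only [Finsupp.coe_sub, Pi.sub_apply, sub_le_self_iff]
    unfold prim
    rw [Finsupp.single_apply]
    split_ifs <;> norm_num
  have hf' : f ∈ riemannRochSpace (E.m • prim E.vinf) := L_mono hle hf
  rw [← E.x_span] at hf'
  obtain ⟨b, hb⟩ := (Submodule.mem_span_range_iff_exists_fun K).mp hf'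
  have hlin : lin E.x b = f := hb
  have hb0 : b ≠ 0 := by
    rintro rfl
    apply hf0
    rw [← hlin]
    simp [lin]
  -- `Z_b` contains `A`
  have hA : 0 < E.Z b A := by
    rw [E.Z_apply hb0, hlin]
    have h1 := (mem_riemannRochSpace_iff.mp hf) A
    rcases h1 with h1 | h1
    · exact absurd h1 hf0
    · have h2 : D A = (E.m • prim E.vinf : Divisor K F) A - 1 := by
        rw [hD]
        simp only [Finsupp.coe_sub, Pi.sub_apply]
        unfold prim
        simp
      rw [h2] at h1
      linarith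
  -- `Z_b` does not contain `P`
  have hP : E.Z b P = 0 := by
    rw [E.Z_apply hb0, hlin, hord]
    have h2 : D P = (E.m • prim E.vinf : Divisor K F) P := by
      rw [hD]
      simp only [Finsupp.coe_sub, Pi.sub_apply]
      rw [prim_apply_of_ne (Ne.symm hAP), sub_zero]
    rw [h2]
    ring
  have hbA : dot b (E.pt A) = 0 := (E.pt_spec A b hb0).mpr hA
  have hbP : dot b (E.pt P) ≠ 0 := by
    intro h0
    have := (E.pt_spec P b hb0).mp h0
    have h2 : E.Z b P = hypDiv E.vinf E.m E.x b P := rfl
    rw [← h2, hP] at this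
    exact lt_irrefl _ this
  exact wedge_ne_zero_of_dot (pt_ne_zero E A) hbA hbP

end Geometry


section ADJ

variable {Ω : Type*} [Field Ω] [CharZero Ω] [IsAlgClosed Ω] [Algebra.IsAlgebraic ℚ Ω]
variable {F : Type*} [Field F] [Algebra Ω F] [FF1 Ω F]

theorem sum_identity_adj {s : Type*} [Fintype s] (z Wd Pt : s → ℝ) (p d aa w : ℝ) :
    ((∑ A, (-z A) * Wd A) + (∑ A, z A * Pt A)) +
        (((∑ A, z A) + 1) * p + (1 * d + ((-1) * aa + (-1) * w)))
      = (∑ A, z A * (Pt A + p - Wd A)) + (d + p - aa - w) := by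
  simp only [mul_add, mul_sub, Finset.sum_add_distrib, Finset.sum_sub_distrib, ← Finset.sum_mul,
    neg_mul, Finset.sum_neg_distrib]
  ring

/-- **Local to global: (L1') ⟹ (ADJ)** for `E₁ = E₂ = E`, over `Ω = ℚ̄` with a system of
absolute values `S` (e.g. `H830.absSystemQbar`). -/
theorem adj_of_l1p (S : AbsSystem Ω) (E : EmbData Ω F) (h : L1pStatement E) :
    ADJStatement E E := by
  classical
  obtain ⟨T, N, hT, hL1⟩ := h
  refine ⟨max N 0 + ∑ t ∈ T, (absLogHeight (![t, 1] : Fin 2 → Ω) +
    absLogHeight (![t⁻¹, 1] : Fin 2 → Ω)), fun a P ha hZP => ?_⟩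
  have hint : ∀ z : Ω, IsIntegral ℚ z := fun z => Algebra.IsIntegral.isIntegral z
  have hZP' : hypDiv E.vinf E.m E.x a P = 1 := hZP
  have hptP : E.pt P ≠ 0 := pt_ne_zero E P
  have hdotP : dot a (E.pt P) = 0 := (E.pt_spec P a ha).mpr (by rw [hZP']; norm_num)
  have hdotT : dot a (E.tn P) ≠ 0 := by
    intro h0
    have := (E.tn_spec P a ha).mp ⟨hdotP, h0⟩
    rw [hZP'] at this
    norm_num at this
  have hwPT : wedge (E.pt P) (E.tn P) ≠ 0 := wedge_ne_zero_of_dot hptP hdotP hdotT
  set Z := (E.Z a).erase P with hZ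
  have hsupp : ∀ A ∈ Z.support, A ≠ P := by
    intro A hA
    rw [hZ, Finsupp.support_erase] at hA
    exact (Finset.mem_erase.mp hA).1
  have hwedge : ∀ A ∈ Z.support, wedge (E.pt A) (E.pt P) ≠ 0 := fun A hA =>
    wedge_pt_ne_zero E (hsupp A hA)
  -- the family of tuples, all indexed by `J`
  let J := Fin (E.r + 1) × Fin (E.r + 1)
  have hfst : Function.Surjective (Prod.fst : J → Fin (E.r + 1)) := Prod.fst_surjective
  let y : ((Z.support ⊕ Z.support) ⊕ (Unit ⊕ (Unit ⊕ (Unit ⊕ Unit)))) → J → Ω :=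
    Sum.elim (Sum.elim (fun A => wedge (E.pt A.1) (E.pt P)) (fun A => E.pt A.1 ∘ Prod.fst))
      (Sum.elim (fun _ => E.pt P ∘ Prod.fst)
        (Sum.elim (fun _ _ => dot a (E.tn P))
          (Sum.elim (fun _ => a ∘ Prod.fst) (fun _ => wedge (E.pt P) (E.tn P)))))
  let c : ((Z.support ⊕ Z.support) ⊕ (Unit ⊕ (Unit ⊕ (Unit ⊕ Unit)))) → ℝ :=
    Sum.elim (Sum.elim (fun A => -(Z A.1 : ℝ)) (fun A => (Z A.1 : ℝ)))
      (Sum.elim (fun _ => (∑ A : Z.support, (Z A.1 : ℝ)) + 1)
        (Sum.elim (fun _ => 1) (Sum.elim (fun _ => -1) (fun _ => -1))))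
  have hcomp_ne : ∀ {w : Fin (E.r + 1) → Ω}, w ≠ 0 → w ∘ (Prod.fst : J → Fin (E.r + 1)) ≠ 0 := by
    intro w hw h0
    obtain ⟨i, hi⟩ := Function.ne_iff.mp hw
    exact hi (congrFun h0 (i, i))
  have hy : ∀ k, y k ≠ 0 := by
    rintro ((A | A) | (_ | (_ | (_ | _))))
    · exact hwedge A.1 A.2
    · exact hcomp_ne (pt_ne_zero E A.1)
    · exact hcomp_ne hptP
    · intro h0
      exact hdotT (congrFun h0 (0, 0))
    · exact hcomp_ne ha
    · exact hwPT
  -- local bound
  have hloc : ∀ v : AbsoluteValue Ω ℝ, IsGoodAbsV v →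
      |∑ k, c k * Real.log (⨆ i, v (y k i))| ≤ bndV v T N := by
    intro v hv
    have hL := hL1 v hv a P ha hZP
    have hexpr : ∑ k, c k * Real.log (⨆ i, v (y k i)) =
        ((E.Z a).erase P).sum (fun A n => (n : ℝ) * lam v (E.pt A) (E.pt P)) +
          Real.log (v (dot a (E.tn P)) * supn v (E.pt P) /
            (supn v a * supn v (wedge (E.pt P) (E.tn P)))) := by
      have e1 : ∀ w : Fin (E.r + 1) → Ω,
          (⨆ i : J, v ((w ∘ Prod.fst) i)) = supn v w := fun w =>
        supn_comp_surjective v Prod.fst hfst w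
      have e2 : (⨆ _i : J, v (dot a (E.tn P))) = v (dot a (E.tn P)) := ciSup_const
      simp only [Fintype.sum_sum_type, y, c, Sum.elim_inl, Sum.elim_inr, Finset.univ_unique,
        Finset.sum_singleton, e1, e2]
      rw [sum_identity_adj (fun A : Z.support => (Z A.1 : ℝ))
        (fun A => Real.log (⨆ i, v (wedge (E.pt A.1) (E.pt P) i)))
        (fun A => Real.log (supn v (E.pt A.1)))]
      congr 1
      · rw [Finsupp.sum, ← Finset.sum_coe_sort Z.support]
        refine Finset.sum_congr rfl fun A _ => ?_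
        congr 1
        unfold lam
        have h1 := supn_pos v (hwedge A.1 A.2)
        have h2 := supn_pos v (pt_ne_zero E A.1)
        have h3 := supn_pos v hptP
        rw [Real.log_div h1.ne' (mul_pos h2 h3).ne', Real.log_mul h2.ne' h3.ne']
        unfold supn
        ring
      · have h1 : v (dot a (E.tn P)) ≠ 0 := (v.pos hdotT).ne'
        have h2 := supn_pos v ha
        have h3 := supn_pos v hptP
        have h4 := supn_pos v hwPT
        rw [Real.log_div (mul_ne_zero h1 h3.ne') (mul_pos h2 h4).ne', Real.log_mul h2.ne' h4.ne',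
          Real.log_mul h1 h3.ne']
        unfold supn
        ring
    rw [hexpr]
    exact hL
  have key := abs_sum_absLogHeight_le S (ι := fun _ => J) y hy c T hT N hloc
  -- global expression
  have hglob : ∑ k, c k * absLogHeight (y k) =
      pairPt E ((E.Z a).erase P) P - kap E P - ht a - ht (E.pt P) := by
    have e1 : ∀ w : Fin (E.r + 1) → Ω,
        absLogHeight (w ∘ (Prod.fst : J → Fin (E.r + 1))) = absLogHeight w := fun w =>
      absLogHeight_comp_surjective Prod.fst hfst w (fun i => hint _)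
    have e2 : absLogHeight (fun _ : J => dot a (E.tn P)) = 0 :=
      absLogHeight_const _ (hint _)
    simp only [Fintype.sum_sum_type, y, c, Sum.elim_inl, Sum.elim_inr, Finset.univ_unique,
      Finset.sum_singleton, e1, e2]
    rw [sum_identity_adj (fun A : Z.support => (Z A.1 : ℝ))
      (fun A => absLogHeight (wedge (E.pt A.1) (E.pt P)))
      (fun A => absLogHeight (E.pt A.1))]
    unfold pairPt hD kap ht
    rw [Finsupp.sum, ← Finset.sum_coe_sort Z.support]
    ring
  rw [← hglob]
  exact key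

end ADJ

section NC

variable {K F : Type*} [Field K] [CharZero K] [Field F] [Algebra K F] [FF1 K F]

/-- **(NC)** is trivial when both embeddings coincide. -/
theorem nc_self (E : EmbData K F) : NCStatement E E :=
  ⟨0, fun P => by rw [sub_self, abs_zero]⟩

end NC

end Fermat.Agent.S17.H380
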