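import Fermat.Agent.S17.H380.LocalGlobal

set_option linter.unusedSectionVars false
set_option linter.style.haveILetI false
set_option autoImplicit false

namespace Fermat.Agent.S17.H380

open NumberField Height Module IntermediateField Fermat.Agent.S17.H830

section LGLe

variable {Ω : Type*} [Field Ω] [CharZero Ω] [IsAlgClosed Ω] [Algebra.IsAlgebraic ℚ Ω]
variable (S : AbsSystem Ω)

section PerSigma

variable {κ : Type*} [Fintype κ] {ι : κ → Type*} [∀ k, Finite (ι k)]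

omit [CharZero Ω] [IsAlgClosed Ω] [Algebra.IsAlgebraic ℚ Ω] in
/-- The one-sided local-to-global estimate for one extension `σ`. -/
theorem sum_locLog_le (σ : Ω →+* Ω) (y : (k : κ) → ι k → Ω) (c : κ → ℝ) (T : Finset Ω)
    (hT : ∀ t ∈ T, t ≠ 0) (N : ℝ) (P₀ : Finset Nat.Primes)
    (hP : ∀ k, ∀ p ∉ P₀, S.locFin p (fun i => σ (y k i)) = 1)
    (hPT : ∀ t ∈ T, ∀ p ∉ P₀, S.fin p (σ t) = 1)
    (hloc : ∀ v : AbsoluteValue Ω ℝ, IsGoodAbsV v →
      ∑ k, c k * Real.log (⨆ i, v (y k i)) ≤ bndV v T N) :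
    ∑ k, c k * S.locLog (fun i => σ (y k i)) ≤
      max N 0 + ∑ t ∈ T, (S.locLog (fun i => σ ((![t, 1] : Fin 2 → Ω) i)) +
        S.locLog (fun i => σ ((![t⁻¹, 1] : Fin 2 → Ω) i))) := by
  classical
  have hT1 : ∀ t ∈ T, ∀ p ∉ P₀, S.locFin p (fun i => σ ((![t, 1] : Fin 2 → Ω) i)) = 1 := by
    intro t ht p hp
    unfold AbsSystem.locFin
    refine le_antisymm (ciSup_le fun i => ?_) (Finite.le_ciSup_of_le (1 : Fin 2) (by simp))
    fin_cases i
    · simp [hPT t ht p hp]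
    · simp
  have hT2 : ∀ t ∈ T, ∀ p ∉ P₀, S.locFin p (fun i => σ ((![t⁻¹, 1] : Fin 2 → Ω) i)) = 1 := by
    intro t ht p hp
    unfold AbsSystem.locFin
    refine le_antisymm (ciSup_le fun i => ?_) (Finite.le_ciSup_of_le (1 : Fin 2) (by simp))
    fin_cases i
    · simp [hPT t ht p hp]
    · simp
  have hL : ∑ k, c k * S.locLog (fun i => σ (y k i)) =
      ∑ k, c k * Real.log (⨆ i, twInf S σ (y k i)) +
        ∑ p ∈ P₀, ∑ k, c k * Real.log (⨆ i, twFin S σ p (y k i)) := by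
    rw [Finset.sum_comm, ← Finset.sum_add_distrib]
    refine Finset.sum_congr rfl fun k _ => ?_
    rw [locLog_comp_eq S σ P₀ (y k) (hP k), mul_add, Finset.mul_sum]
  have hR : ∑ t ∈ T, (S.locLog (fun i => σ ((![t, 1] : Fin 2 → Ω) i)) +
        S.locLog (fun i => σ ((![t⁻¹, 1] : Fin 2 → Ω) i))) =
      ∑ t ∈ T, |Real.log (twInf S σ t)| + ∑ p ∈ P₀, ∑ t ∈ T, |Real.log (twFin S σ p t)| := by
    rw [Finset.sum_comm, ← Finset.sum_add_distrib]
    refine Finset.sum_congr rfl fun t ht => ?_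
    rw [locLog_comp_eq S σ P₀ _ (hT1 t ht), locLog_comp_eq S σ P₀ _ (hT2 t ht),
      abs_log_eq_log_max_add _ (hT t ht),
      Finset.sum_congr rfl (fun p _ => abs_log_eq_log_max_add (twFin S σ p) (hT t ht)),
      Finset.sum_add_distrib]
    ring
  rw [hL, hR]
  have hinf : ∑ k, c k * Real.log (⨆ i, twInf S σ (y k i)) ≤
      max N 0 + ∑ t ∈ T, |Real.log (twInf S σ t)| := by
    refine (hloc (twInf S σ) (Or.inr ⟨S.inf.comp σ, fun _ => rfl⟩)).trans ?_
    unfold bndV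
    gcongr
    split_ifs
    · exact le_max_right _ _
    · exact le_max_left _ _
  have hfin : ∀ p ∈ P₀, ∑ k, c k * Real.log (⨆ i, twFin S σ p (y k i)) ≤
      ∑ t ∈ T, |Real.log (twFin S σ p t)| := by
    intro p _
    refine (hloc (twFin S σ p) (Or.inl (twFin_isNonarchimedean S σ p))).trans ?_
    unfold bndV
    rw [if_pos (twFin_isNonarchimedean S σ p), zero_add]
  calc ∑ k, c k * Real.log (⨆ i, twInf S σ (y k i)) +
        ∑ p ∈ P₀, ∑ k, c k * Real.log (⨆ i, twFin S σ p (y k i))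
      ≤ (max N 0 + ∑ t ∈ T, |Real.log (twInf S σ t)|) +
        ∑ p ∈ P₀, ∑ t ∈ T, |Real.log (twFin S σ p t)| :=
      add_le_add hinf (Finset.sum_le_sum hfin)
    _ = max N 0 + (∑ t ∈ T, |Real.log (twInf S σ t)| +
        ∑ p ∈ P₀, ∑ t ∈ T, |Real.log (twFin S σ p t)|) := by ring

end PerSigma

section Global

variable {κ : Type*} [Fintype κ] {ι : κ → Type*} [∀ k, Finite (ι k)]

include S in
/-- **One-sided local-to-global principle for absolute heights.**  If the local expression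
`∑ k, c k * log (sup_i v (y k i))` is at most `[v archimedean] * N + ∑_{t ∈ T} |log v t|`
for EVERY absolute value `v` of `Ω` which is nonarchimedean or induced by a complex embedding,
then `∑ k, c k * absLogHeight (y k) ≤ max N 0 + ∑_{t ∈ T} (h(t) + h(t⁻¹))`. -/
theorem sum_absLogHeight_le (y : (k : κ) → ι k → Ω) (hy : ∀ k, y k ≠ 0) (c : κ → ℝ)
    (T : Finset Ω) (hT : ∀ t ∈ T, t ≠ 0) (N : ℝ)
    (hloc : ∀ v : AbsoluteValue Ω ℝ, IsGoodAbsV v →
      ∑ k, c k * Real.log (⨆ i, v (y k i)) ≤ bndV v T N) :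
    ∑ k, c k * absLogHeight (y k) ≤
      max N 0 + ∑ t ∈ T, (absLogHeight (![t, 1] : Fin 2 → Ω) +
        absLogHeight (![t⁻¹, 1] : Fin 2 → Ω)) := by
  classical
  let u : ((Σ k, ι k) ⊕ T) → Ω := Sum.elim (fun s => y s.1 s.2) (fun t => t.1)
  have hu : ∀ j, IsIntegral ℚ (u j) := fun j => Algebra.IsIntegral.isIntegral _
  haveI := tupleField_numberField u hu
  set F := tupleField u with hF
  have hmy : ∀ k i, y k i ∈ F := fun k i => subset_adjoin ℚ _ ⟨Sum.inl ⟨k, i⟩, rfl⟩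
  have hmt : ∀ t ∈ T, t ∈ F := fun t ht => subset_adjoin ℚ _ ⟨Sum.inr ⟨t, ht⟩, rfl⟩
  have hm1 : ∀ t ∈ T, ∀ i, (![t, 1] : Fin 2 → Ω) i ∈ F := by
    intro t ht i
    fin_cases i
    · exact hmt t ht
    · exact F.one_mem
  have hm2 : ∀ t ∈ T, ∀ i, (![t⁻¹, 1] : Fin 2 → Ω) i ∈ F := by
    intro t ht i
    fin_cases i
    · exact F.inv_mem (hmt t ht)
    · exact F.one_mem
  have hD : (0 : ℝ) < finrank ℚ F := by exact_mod_cast Module.finrank_pos
  have hyk : ∀ k, absLogHeight (y k) = (finrank ℚ F : ℝ)⁻¹ *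
      ∑ τ : F →+* Ω, S.locLog (fun i => extHom F τ (y k i)) :=
    fun k => absLogHeight_eq_sum_locLog S F (y k) (hy k) (hmy k)
  have ht1 : ∀ t ∈ T, absLogHeight (![t, 1] : Fin 2 → Ω) = (finrank ℚ F : ℝ)⁻¹ *
      ∑ τ : F →+* Ω, S.locLog (fun i => extHom F τ ((![t, 1] : Fin 2 → Ω) i)) :=
    fun t ht => absLogHeight_eq_sum_locLog S F _ (vec_one_ne_zero t) (hm1 t ht)
  have ht2 : ∀ t ∈ T, absLogHeight (![t⁻¹, 1] : Fin 2 → Ω) = (finrank ℚ F : ℝ)⁻¹ *
      ∑ τ : F →+* Ω, S.locLog (fun i => extHom F τ ((![t⁻¹, 1] : Fin 2 → Ω) i)) :=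
    fun t ht => absLogHeight_eq_sum_locLog S F _ (vec_one_ne_zero t⁻¹) (hm2 t ht)
  have hτ : ∀ τ : F →+* Ω, ∑ k, c k * S.locLog (fun i => extHom F τ (y k i)) ≤
      max N 0 + ∑ t ∈ T, (S.locLog (fun i => extHom F τ ((![t, 1] : Fin 2 → Ω) i)) +
        S.locLog (fun i => extHom F τ ((![t⁻¹, 1] : Fin 2 → Ω) i))) := by
    intro τ
    have hfy : ∀ k, (Function.mulSupport
        (fun p : Nat.Primes => S.locFin p (fun i => extHom F τ (y k i)))).Finite := by
      intro k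
      have hy' : (fun i => (⟨y k i, hmy k i⟩ : F)) ≠ 0 := by
        obtain ⟨i, hi⟩ := Function.ne_iff.mp (hy k)
        exact Function.ne_iff.mpr ⟨i, fun h => hi (congrArg Subtype.val h)⟩
      have := hasFiniteMulSupport_locFin S (fun i => (⟨y k i, hmy k i⟩ : F)) hy' τ
      have heq : (fun i => τ (⟨y k i, hmy k i⟩ : F)) = fun i => extHom F τ (y k i) := by
        funext i
        exact (extHom_apply F τ ⟨y k i, hmy k i⟩).symm
      rw [heq] at this
      exact this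
    have hft : ∀ t : T, (Function.mulSupport
        (fun p : Nat.Primes => S.fin p (extHom F τ t.1))).Finite := by
      intro t
      have ht0 : (fun _ : Unit => (⟨t.1, hmt t.1 t.2⟩ : F)) ≠ 0 := by
        intro h
        have := congrFun h ()
        exact hT t.1 t.2 (congrArg Subtype.val this)
      have := hasFiniteMulSupport_locFin S (fun _ : Unit => (⟨t.1, hmt t.1 t.2⟩ : F)) ht0 τ
      have heq : (fun p : Nat.Primes => S.locFin p (fun _ : Unit => τ (⟨t.1, hmt t.1 t.2⟩ : F)))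
          = fun p : Nat.Primes => S.fin p (extHom F τ t.1) := by
        funext p
        unfold AbsSystem.locFin
        rw [ciSup_const, extHom_apply F τ ⟨t.1, hmt t.1 t.2⟩]
      rw [heq] at this
      exact this
    let P₀ : Finset Nat.Primes :=
      (Finset.univ.biUnion fun k => (hfy k).toFinset) ∪
        (Finset.univ.biUnion fun t : T => (hft t).toFinset)
    refine sum_locLog_le S (extHom F τ) y c T hT N P₀ ?_ ?_ hloc
    · intro k p hp
      by_contra hne
      apply hp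
      refine Finset.mem_union_left _ (Finset.mem_biUnion.mpr ⟨k, Finset.mem_univ _, ?_⟩)
      rw [Set.Finite.mem_toFinset]
      exact hne
    · intro t ht p hp
      by_contra hne
      apply hp
      refine Finset.mem_union_right _ (Finset.mem_biUnion.mpr ⟨⟨t, ht⟩, Finset.mem_univ _, ?_⟩)
      rw [Set.Finite.mem_toFinset]
      exact hne
  have hcard : (Fintype.card (F →+* Ω) : ℝ) = finrank ℚ F := by
    exact_mod_cast NumberField.Embeddings.card F Ω
  have hLHS : ∑ k, c k * absLogHeight (y k) = (finrank ℚ F : ℝ)⁻¹ *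
      ∑ τ : F →+* Ω, ∑ k, c k * S.locLog (fun i => extHom F τ (y k i)) := by
    rw [Finset.sum_comm, Finset.mul_sum]
    refine Finset.sum_congr rfl fun k _ => ?_
    rw [hyk k, Finset.mul_sum, Finset.mul_sum, Finset.mul_sum]
    refine Finset.sum_congr rfl fun τ _ => ?_
    ring
  have hRHS : max N 0 + ∑ t ∈ T, (absLogHeight (![t, 1] : Fin 2 → Ω) +
        absLogHeight (![t⁻¹, 1] : Fin 2 → Ω)) = (finrank ℚ F : ℝ)⁻¹ *
      ∑ τ : F →+* Ω, (max N 0 +
        ∑ t ∈ T, (S.locLog (fun i => extHom F τ ((![t, 1] : Fin 2 → Ω) i)) +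
          S.locLog (fun i => extHom F τ ((![t⁻¹, 1] : Fin 2 → Ω) i)))) := by
    have e1 : ∑ τ : F →+* Ω, (max N 0 +
        ∑ t ∈ T, (S.locLog (fun i => extHom F τ ((![t, 1] : Fin 2 → Ω) i)) +
          S.locLog (fun i => extHom F τ ((![t⁻¹, 1] : Fin 2 → Ω) i)))) =
        (finrank ℚ F : ℝ) * max N 0 + ∑ t ∈ T, ∑ τ : F →+* Ω,
          (S.locLog (fun i => extHom F τ ((![t, 1] : Fin 2 → Ω) i)) +
            S.locLog (fun i => extHom F τ ((![t⁻¹, 1] : Fin 2 → Ω) i))) := by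
      rw [Finset.sum_add_distrib, Finset.sum_const, Finset.card_univ, nsmul_eq_mul, hcard,
        Finset.sum_comm]
    rw [e1, mul_add, ← mul_assoc, inv_mul_cancel₀ hD.ne', one_mul, Finset.mul_sum]
    congr 1
    refine Finset.sum_congr rfl fun t ht => ?_
    rw [ht1 t ht, ht2 t ht, ← mul_add, ← Finset.sum_add_distrib]
  rw [hLHS, hRHS]
  refine mul_le_mul_of_nonneg_left ?_ (inv_pos.mpr hD).le
  exact Finset.sum_le_sum fun τ _ => hτ τ

end Global

end LGLe

end Fermat.Agent.S17.H380
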